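import Mathlib

/-!
# S55 / G1 (first inequality): the maps `θ = σ - 1` and `ν = 1 + σ + ⋯ + σ^{p-1}`

Generic definitions for a commutative group `M` (written multiplicatively) with a
`MulDistribMulAction` of a group `G`, and an element `σ : G` with `σ ^ p = 1`.
-/

namespace Fermat.Agent.S55

set_option linter.style.haveILetI false
set_option linter.unusedSectionVars false
set_option autoImplicit false

open Finset

section

variable {G : Type*} [Group G] {M M' : Type*} [CommGroup M] [CommGroup M']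
  [MulDistribMulAction G M] [MulDistribMulAction G M']

/-- `θ x = σ • x / x`. -/
def fq_theta (σ : G) : M →* M where
  toFun x := σ • x / x
  map_one' := by simp
  map_mul' x y := by rw [smul_mul', mul_div_mul_comm]

/-- `ν x = ∏_{k < p} σ^k • x`. -/
def fq_nu (σ : G) (p : ℕ) : M →* M where
  toFun x := ∏ k ∈ range p, σ ^ k • x
  map_one' := by simp
  map_mul' x y := by simp only [smul_mul', prod_mul_distrib]

@[simp] theorem fq_theta_apply (σ : G) (x : M) : fq_theta σ x = σ • x / x := rfl

@[simp] theorem fq_nu_apply (σ : G) (p : ℕ) (x : M) :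
    fq_nu σ p x = ∏ k ∈ range p, σ ^ k • x := rfl

theorem fq_smul_nu (σ : G) (p : ℕ) (hσ : σ ^ p = 1) (x : M) :
    σ • fq_nu σ p x = fq_nu σ p x := by
  simp only [fq_nu_apply, Finset.smul_prod']
  rcases Nat.eq_zero_or_pos p with h0 | hpos
  · subst h0; simp
  · obtain ⟨m, rfl⟩ : ∃ m, p = m + 1 := ⟨p - 1, by omega⟩
    have h1 : ∀ k, σ • σ ^ k • x = σ ^ (k + 1) • x := fun k => by
      rw [← mul_smul, ← pow_succ']
    simp only [h1]
    rw [prod_range_succ (fun k => σ ^ (k + 1) • x), prod_range_succ' (fun k => σ ^ k • x), hσ,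
      pow_zero]

theorem fq_theta_nu (σ : G) (p : ℕ) (hσ : σ ^ p = 1) (x : M) :
    fq_theta σ (fq_nu σ p x) = 1 := by
  rw [fq_theta_apply, fq_smul_nu σ p hσ, div_self']

theorem fq_nu_theta (σ : G) (p : ℕ) (hσ : σ ^ p = 1) (x : M) :
    fq_nu σ p (fq_theta σ x) = 1 := by
  rw [fq_theta_apply, map_div, div_eq_one]
  have h := fq_smul_nu σ p hσ x
  simp only [fq_nu_apply, Finset.smul_prod'] at h ⊢
  rw [← h]
  refine prod_congr rfl fun k _ => ?_
  rw [← mul_smul, ← mul_smul, ← pow_succ, ← pow_succ']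

/-- Equivariant homomorphisms commute with `θ`. -/
theorem fq_map_theta (φ : M →* M') (hφ : ∀ (g : G) (x : M), φ (g • x) = g • φ x) (σ : G) (x : M) :
    φ (fq_theta σ x) = fq_theta σ (φ x) := by
  simp only [fq_theta_apply, map_div, hφ]

/-- Equivariant homomorphisms commute with `ν`. -/
theorem fq_map_nu (φ : M →* M') (hφ : ∀ (g : G) (x : M), φ (g • x) = g • φ x) (σ : G) (p : ℕ)
    (x : M) : φ (fq_nu σ p x) = fq_nu σ p (φ x) := by
  simp only [fq_nu_apply, map_prod, hφ]

end

end Fermat.Agent.S55
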