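import Mathlib
import Fermat.Agent.S55.Idele.Defs

/-!
# S55 / block [G1]: finiteness of the `S`-ideal class group

`fq_index_range_div_ne_zero : (id_div S K).range.index ≠ 0`, i.e. the prime-to-`S` principal
divisors have finite index in the group `id_I S K` of divisors prime to `S`
(`⟺ Finite (id_ClS S K)`), from the finiteness of `ClassGroup (𝓞 K)`.
-/

set_option autoImplicit false

open scoped NumberField nonZeroDivisors
open IsDedekindDomain FractionalIdeal

noncomputable section

namespace Fermat.Agent.S55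

variable (S : Finset Nat.Primes) (K : Type*) [Field K] [NumberField K]

/-- The adic valuation of a nonzero integer, via the count of its principal fractional ideal. -/
theorem fq_intValuation_eq_exp_neg_count (v : HeightOneSpectrum (𝓞 K)) {r : 𝓞 K} (hr : r ≠ 0) :
    v.intValuation r =
      WithZero.exp (-(FractionalIdeal.count K v (spanSingleton (𝓞 K)⁰ (algebraMap (𝓞 K) K r)))) := by
  have h0 : (Ideal.span {r} : Ideal (𝓞 K)) ≠ 0 := by
    rw [Ne, Ideal.zero_eq_bot, Ideal.span_singleton_eq_bot]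
    exact hr
  rw [← FractionalIdeal.coeIdeal_span_singleton, FractionalIdeal.count_coe K v h0,
    HeightOneSpectrum.intValuation_if_neg v hr]

/-- The adic valuation of `x ∈ Kˣ`, via the count of its principal fractional ideal. -/
theorem fq_valuation_eq_exp_neg_count (v : HeightOneSpectrum (𝓞 K)) (x : Kˣ) :
    v.valuation K (x : K) =
      WithZero.exp (-(FractionalIdeal.count K v (spanSingleton (𝓞 K)⁰ (x : K)))) := by
  obtain ⟨a, b, hb, hx⟩ := IsFractionRing.div_surjective (A := 𝓞 K) (x : K)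
  have hb0 : b ≠ 0 := nonZeroDivisors.ne_zero hb
  have ha0 : a ≠ 0 := by
    rintro rfl
    rw [map_zero, zero_div] at hx
    exact x.ne_zero hx.symm
  have hb' : algebraMap (𝓞 K) K b ≠ 0 := by
    rwa [Ne, map_eq_zero_iff _ (IsFractionRing.injective (𝓞 K) K)]
  have ha' : algebraMap (𝓞 K) K a ≠ 0 := by
    rwa [Ne, map_eq_zero_iff _ (IsFractionRing.injective (𝓞 K) K)]
  have hsa : spanSingleton (𝓞 K)⁰ (algebraMap (𝓞 K) K a) ≠ 0 := by
    rwa [Ne, spanSingleton_eq_zero_iff]
  have hsb : spanSingleton (𝓞 K)⁰ (algebraMap (𝓞 K) K b) ≠ 0 := by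
    rwa [Ne, spanSingleton_eq_zero_iff]
  have h1 : spanSingleton (𝓞 K)⁰ (x : K) = spanSingleton (𝓞 K)⁰ (algebraMap (𝓞 K) K a) *
      (spanSingleton (𝓞 K)⁰ (algebraMap (𝓞 K) K b))⁻¹ := by
    rw [spanSingleton_inv, spanSingleton_mul_spanSingleton, ← hx, div_eq_mul_inv]
  rw [h1, count_mul K v hsa (inv_ne_zero hsb), count_inv, ← hx, map_div₀,
    HeightOneSpectrum.valuation_of_algebraMap, HeightOneSpectrum.valuation_of_algebraMap,
    fq_intValuation_eq_exp_neg_count K v ha0, fq_intValuation_eq_exp_neg_count K v hb0,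
    ← WithZero.exp_sub]
  congr 1
  ring

theorem fq_ordZ_eq_count (v : HeightOneSpectrum (𝓞 K)) (x : Kˣ) :
    id_ordZ K v x = FractionalIdeal.count K v (spanSingleton (𝓞 K)⁰ (x : K)) := by
  rw [id_ordZ, fq_valuation_eq_exp_neg_count, WithZero.log_exp, neg_neg]

/-- The prime `v`, as a unit of the monoid of fractional ideals. -/
def fq_primeUnit (v : HeightOneSpectrum (𝓞 K)) : (FractionalIdeal (𝓞 K)⁰ K)ˣ :=
  Units.mk0 (v.asIdeal : FractionalIdeal (𝓞 K)⁰ K) (coeIdeal_ne_zero.mpr v.ne_bot)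

@[simp]
theorem fq_primeUnit_coe (v : HeightOneSpectrum (𝓞 K)) :
    ((fq_primeUnit K v : (FractionalIdeal (𝓞 K)⁰ K)ˣ) : FractionalIdeal (𝓞 K)⁰ K) =
      (v.asIdeal : FractionalIdeal (𝓞 K)⁰ K) := rfl

/-- The fractional ideal `∏ v ^ D v` of a divisor prime to `S`. -/
def fq_idl : id_I S K →* (FractionalIdeal (𝓞 K)⁰ K)ˣ where
  toFun D := D.toAdd.prod fun v n => fq_primeUnit K v.1 ^ n
  map_one' := Finsupp.prod_zero_index
  map_mul' _ _ := Finsupp.prod_add_index' (fun _ => zpow_zero _) (fun _ _ _ => zpow_add _ _ _)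

theorem fq_idl_coe (D : id_I S K) :
    ((fq_idl S K D : (FractionalIdeal (𝓞 K)⁰ K)ˣ) : FractionalIdeal (𝓞 K)⁰ K) =
      ∏ v ∈ D.toAdd.support, (v.1.asIdeal : FractionalIdeal (𝓞 K)⁰ K) ^ (D.toAdd v) := by
  change ((D.toAdd.prod fun v n => fq_primeUnit K v.1 ^ n : (FractionalIdeal (𝓞 K)⁰ K)ˣ) :
    FractionalIdeal (𝓞 K)⁰ K) = _
  rw [Finsupp.prod, Units.coe_prod]
  apply Finset.prod_congr rfl
  intro v _
  rw [Units.val_zpow_eq_zpow_val, fq_primeUnit_coe]

open Classical in
theorem fq_count_idl (D : id_I S K) (v : HeightOneSpectrum (𝓞 K)) :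
    FractionalIdeal.count K v (fq_idl S K D : FractionalIdeal (𝓞 K)⁰ K) =
      ∑ w ∈ D.toAdd.support, if w.1 = v then D.toAdd w else 0 := by
  rw [fq_idl_coe, count_prod]
  · apply Finset.sum_congr rfl
    intro w _
    rw [count_zpow, count_maximal]
    split_ifs <;> simp
  · intro w _
    exact zpow_ne_zero _ (coeIdeal_ne_zero.mpr w.1.ne_bot)

theorem fq_count_idl_of_primeToS (D : id_I S K) (v : id_P S K) :
    FractionalIdeal.count K v.1 (fq_idl S K D : FractionalIdeal (𝓞 K)⁰ K) = D.toAdd v := by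
  classical
  rw [fq_count_idl]
  have h : ∀ w ∈ D.toAdd.support, (if w.1 = v.1 then D.toAdd w else 0) =
      if w = v then D.toAdd v else 0 := by
    intro w _
    by_cases hw : w = v
    · subst hw; simp
    · have : w.1 ≠ v.1 := fun h => hw (Subtype.ext h)
      simp [hw, this]
  rw [Finset.sum_congr rfl h, Finset.sum_ite_eq']
  split_ifs with hv
  · rfl
  · rw [Finsupp.mem_support_iff, not_not] at hv
    exact hv.symm

/-- A divisor prime to `S` whose ideal class is trivial is the prime-to-`S` divisor of an element. -/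
theorem fq_mem_range_div_of_mk_eq_one (D : id_I S K)
    (h : ClassGroup.mk K (fq_idl S K D) = 1) : D ∈ (id_div S K).range := by
  rw [ClassGroup.mk_eq_one_iff] at h
  obtain ⟨x, hx⟩ := (FractionalIdeal.isPrincipal_iff
    ((fq_idl S K D : (FractionalIdeal (𝓞 K)⁰ K)ˣ) : FractionalIdeal (𝓞 K)⁰ K)).1 h
  have hx0 : x ≠ 0 := by
    rintro rfl
    rw [spanSingleton_zero] at hx
    exact (fq_idl S K D).ne_zero hx
  refine ⟨Units.mk0 x hx0, ?_⟩
  apply Multiplicative.toAdd.injective
  ext v
  change id_ordZ K v.1 (Units.mk0 x hx0) = D.toAdd v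
  rw [fq_ordZ_eq_count, Units.val_mk0, ← hx, fq_count_idl_of_primeToS]

/-- **Finiteness of the `S`-ideal class group**: the prime-to-`S` principal divisors have finite
index in the group of divisors prime to `S`. -/
theorem fq_index_range_div_ne_zero : (id_div S K).range.index ≠ 0 := by
  let ψ : id_I S K →* ClassGroup (𝓞 K) := (ClassGroup.mk K).comp (fq_idl S K)
  have hle : ψ.ker ≤ (id_div S K).range := by
    intro D hD
    exact fq_mem_range_div_of_mk_eq_one S K D (MonoidHom.mem_ker.1 hD)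
  have h1 : ψ.ker.index ≠ 0 := by
    rw [Subgroup.index_ker]
    exact Nat.card_pos.ne'
  exact fun h0 => h1 (Nat.eq_zero_of_zero_dvd (h0 ▸ Subgroup.index_dvd_of_le hle))

/-- `Cl_S(K)` is finite. -/
instance fq_finite_ClS : Finite (id_ClS S K) :=
  haveI : (id_div S K).range.FiniteIndex := ⟨fq_index_range_div_ne_zero S K⟩
  Subgroup.finite_quotient_of_finiteIndex

/-- The projection `J_S(K) →* Cl_S(K)`, `(a, D) ↦ [D]`. -/
def fq_toClS : id_J S K →* id_ClS S K :=
  (QuotientGroup.mk' (id_div S K).range).comp (MonoidHom.snd (id_JS S K) (id_I S K))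

theorem fq_toClS_apply (z : id_J S K) :
    fq_toClS S K z = QuotientGroup.mk' (id_div S K).range z.2 := rfl

theorem fq_toClS_surjective : Function.Surjective (fq_toClS S K) := by
  intro c
  obtain ⟨D, rfl⟩ := QuotientGroup.mk'_surjective _ c
  exact ⟨(1, D), rfl⟩

theorem fq_princ_le_ker : id_princ S K ≤ (fq_toClS S K).ker := by
  rintro _ ⟨x, rfl⟩
  rw [MonoidHom.mem_ker, fq_toClS_apply, id_diag_snd, QuotientGroup.mk'_apply,
    QuotientGroup.eq_one_iff]
  exact ⟨x, rfl⟩

/-- The induced map `C_S(K) →* Cl_S(K)`. -/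
def fq_CToClS : id_C S K →* id_ClS S K :=
  QuotientGroup.lift (id_princ S K) (fq_toClS S K) (fq_princ_le_ker S K)

theorem fq_CToClS_toC (z : id_J S K) : fq_CToClS S K (id_toC S K z) = fq_toClS S K z := rfl

theorem fq_CToClS_surjective : Function.Surjective (fq_CToClS S K) := by
  intro c
  obtain ⟨z, rfl⟩ := fq_toClS_surjective S K c
  exact ⟨id_toC S K z, rfl⟩

/-- The kernel of `C_S(K) → Cl_S(K)` is `C_S°(K)`. -/
theorem fq_ker_CToClS : (fq_CToClS S K).ker = id_CSo S K := by
  ext c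
  obtain ⟨z, rfl⟩ := id_toC_surjective S K c
  rw [MonoidHom.mem_ker, fq_CToClS_toC, fq_toClS_apply, QuotientGroup.mk'_apply,
    QuotientGroup.eq_one_iff]
  constructor
  · rintro ⟨x, hx⟩
    refine ⟨z.1 / id_diagS S K x, ?_⟩
    have h1 : z = id_inS S K (z.1 / id_diagS S K x) * id_diag S K x := by
      apply Prod.ext
      · change z.1 = z.1 / id_diagS S K x * id_diagS S K x
        rw [div_mul_cancel]
      · change z.2 = 1 * id_div S K x
        rw [_root_.one_mul, hx]
    have h2 : id_toC S K z = id_jS S K (z.1 / id_diagS S K x) * id_toC S K (id_diag S K x) := by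
      conv_lhs => rw [h1, map_mul]
      rfl
    rw [h2, id_toC_diag]
    exact (_root_.mul_one (M := id_C S K) _).symm
  · rintro ⟨a, ha⟩
    have ha' : id_toC S K (id_inS S K a) = id_toC S K z := ha
    have h2 : id_toC S K (z / id_inS S K a) = 1 := by
      rw [map_div, ha', div_self']
    obtain ⟨x, hx⟩ := (id_toC_eq_one_iff S K _).1 h2
    refine ⟨x, ?_⟩
    have h3 := congrArg Prod.snd hx
    rw [id_diag_snd] at h3
    rw [h3]
    change z.2 / 1 = z.2
    exact _root_.div_one _

/-- `[C_S(K) : C_S°(K)] = |Cl_S(K)|`. -/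
theorem fq_index_CSo : (id_CSo S K).index = Nat.card (id_ClS S K) := by
  rw [← fq_ker_CToClS, Subgroup.index_ker, MonoidHom.range_eq_top.2 (fq_CToClS_surjective S K),
    Nat.card_congr Subgroup.topEquiv.toEquiv]

/-- `C_S°(K)` has finite index in `C_S(K)`. -/
theorem fq_index_CSo_ne_zero : (id_CSo S K).index ≠ 0 := by
  rw [fq_index_CSo]
  exact Nat.card_pos.ne'

end Fermat.Agent.S55
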