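import Fermat.Agent.S55.Idele.Defs
import Fermat.Agent.S55.G1.Defs
import Fermat.Agent.S55.SUnit.Hexagon
import Fermat.Agent.S14.FirstIneq.Herbrand

/-!
# S55 / G1: the exact sequence `1 → E_S → ∏_{q ∈ S} (ℚ_q ⊗ K)ˣ → C_S`

with the endomorphisms `θ`, `ν` on each term, for `σ : K ≃ₐ[ℚ] K`.
-/

set_option autoImplicit false
set_option linter.unusedSectionVars false
set_option linter.style.haveILetI false

open scoped TensorProduct NumberField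
open IsDedekindDomain Finset

noncomputable section

namespace Fermat.Agent.S55

universe u

variable (S : Finset Nat.Primes) (K : Type u) [Field K] [NumberField K]

/-! ### The endomorphisms `θ`, `ν` on `Kˣ`, `J_S`, `C_S` -/

/-- `θ` on `Kˣ`. -/
def fq_thetaK (σ : K ≃ₐ[ℚ] K) : Kˣ →* Kˣ := fq_theta (M := Kˣ) σ
/-- `ν` on `Kˣ`. -/
def fq_nuK (σ : K ≃ₐ[ℚ] K) (p : ℕ) : Kˣ →* Kˣ := fq_nu (M := Kˣ) σ p
/-- `θ` on `∏_{q ∈ S} (ℚ_q ⊗ K)ˣ`. -/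
def fq_thetaJ (σ : K ≃ₐ[ℚ] K) : id_JS S K →* id_JS S K := fq_theta (M := id_JS S K) σ
/-- `ν` on `∏_{q ∈ S} (ℚ_q ⊗ K)ˣ`. -/
def fq_nuJ (σ : K ≃ₐ[ℚ] K) (p : ℕ) : id_JS S K →* id_JS S K := fq_nu (M := id_JS S K) σ p
/-- `θ` on `C_S(K)`. -/
def fq_thetaC (σ : K ≃ₐ[ℚ] K) : id_C S K →* id_C S K := fq_theta (M := id_C S K) σ
/-- `ν` on `C_S(K)`. -/
def fq_nuC (σ : K ≃ₐ[ℚ] K) (p : ℕ) : id_C S K →* id_C S K := fq_nu (M := id_C S K) σ p

theorem fq_thetaK_apply (σ : K ≃ₐ[ℚ] K) (x : Kˣ) : fq_thetaK K σ x = σ • x / x := rfl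
theorem fq_nuK_apply (σ : K ≃ₐ[ℚ] K) (p : ℕ) (x : Kˣ) :
    fq_nuK K σ p x = ∏ k ∈ range p, σ ^ k • x := rfl
theorem fq_thetaJ_apply (σ : K ≃ₐ[ℚ] K) (a : id_JS S K) : fq_thetaJ S K σ a = σ • a / a := rfl
theorem fq_nuJ_apply (σ : K ≃ₐ[ℚ] K) (p : ℕ) (a : id_JS S K) :
    fq_nuJ S K σ p a = ∏ k ∈ range p, σ ^ k • a := rfl
theorem fq_thetaC_apply (σ : K ≃ₐ[ℚ] K) (c : id_C S K) : fq_thetaC S K σ c = σ • c / c := rfl
theorem fq_nuC_apply (σ : K ≃ₐ[ℚ] K) (p : ℕ) (c : id_C S K) :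
    fq_nuC S K σ p c = ∏ k ∈ range p, σ ^ k • c := rfl

theorem fq_smul_diagS (σ : K ≃ₐ[ℚ] K) (x : Kˣ) : σ • id_diagS S K x = id_diagS S K (σ • x) := by
  funext q
  exact id_smul_inclU K q.1 σ x

theorem fq_diagS_theta (σ : K ≃ₐ[ℚ] K) (x : Kˣ) :
    id_diagS S K (fq_thetaK K σ x) = fq_thetaJ S K σ (id_diagS S K x) :=
  fq_map_theta (M := Kˣ) (M' := id_JS S K) (id_diagS S K)
    (fun g x => (fq_smul_diagS S K g x).symm) σ x

theorem fq_diagS_nu (σ : K ≃ₐ[ℚ] K) (p : ℕ) (x : Kˣ) :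
    id_diagS S K (fq_nuK K σ p x) = fq_nuJ S K σ p (id_diagS S K x) :=
  fq_map_nu (M := Kˣ) (M' := id_JS S K) (id_diagS S K)
    (fun g x => (fq_smul_diagS S K g x).symm) σ p x

theorem fq_jS_theta (σ : K ≃ₐ[ℚ] K) (a : id_JS S K) :
    id_jS S K (fq_thetaJ S K σ a) = fq_thetaC S K σ (id_jS S K a) :=
  fq_map_theta (M := id_JS S K) (M' := id_C S K) (id_jS S K)
    (fun g x => (id_smul_jS S K g x).symm) σ a

theorem fq_jS_nu (σ : K ≃ₐ[ℚ] K) (p : ℕ) (a : id_JS S K) :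
    id_jS S K (fq_nuJ S K σ p a) = fq_nuC S K σ p (id_jS S K a) :=
  fq_map_nu (M := id_JS S K) (M' := id_C S K) (id_jS S K)
    (fun g x => (id_smul_jS S K g x).symm) σ p a

/-! ### The three terms -/

/-- `E_S` is stable under the Galois action. -/
theorem fq_smul_mem_ES (σ : K ≃ₐ[ℚ] K) {x : Kˣ} (hx : x ∈ id_ES S K) : σ • x ∈ id_ES S K := by
  rw [id_ES, MonoidHom.mem_ker] at hx ⊢
  rw [← id_smul_div, hx, smul_one]

/-- The inclusion `E_S → ∏_{q ∈ S} (ℚ_q ⊗ K)ˣ`. -/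
def fq_iota : id_ES S K →* id_JS S K := (id_diagS S K).comp (id_ES S K).subtype

theorem fq_iota_apply (x : id_ES S K) : fq_iota S K x = id_diagS S K (x : Kˣ) := rfl

theorem fq_iota_injective (hS : S.Nonempty) : Function.Injective (fq_iota S K) := by
  obtain ⟨q, hq⟩ := hS
  intro x y h
  apply Subtype.ext
  apply id_inclU_injective K q
  have h1 := congrFun h ⟨q, hq⟩
  simpa [fq_iota_apply] using h1

theorem fq_ker_jS : (id_jS S K).ker = (fq_iota S K).range := by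
  ext a
  rw [MonoidHom.mem_ker, MonoidHom.mem_range]
  change id_toC S K (id_inS S K a) = 1 ↔ _
  rw [id_toC_eq_one_iff]
  constructor
  · rintro ⟨x, hx⟩
    have h1 : id_diagS S K x = a := congrArg Prod.fst hx
    have h2 : id_div S K x = 1 := congrArg Prod.snd hx
    exact ⟨⟨x, h2⟩, h1⟩
  · rintro ⟨x, rfl⟩
    refine ⟨(x : Kˣ), ?_⟩
    apply Prod.ext
    · rfl
    · exact x.2

/-- `θ` on `E_S`. -/
def fq_thetaE (σ : K ≃ₐ[ℚ] K) : id_ES S K →* id_ES S K :=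
  ((fq_thetaK K σ).comp (id_ES S K).subtype).codRestrict (id_ES S K) fun x =>
    (id_ES S K).div_mem (fq_smul_mem_ES S K σ x.2) x.2

/-- `ν` on `E_S`. -/
def fq_nuE (σ : K ≃ₐ[ℚ] K) (p : ℕ) : id_ES S K →* id_ES S K :=
  ((fq_nuK K σ p).comp (id_ES S K).subtype).codRestrict (id_ES S K) fun x =>
    Subgroup.prod_mem _ fun k _ => fq_smul_mem_ES S K (σ ^ k) x.2

theorem fq_thetaE_coe (σ : K ≃ₐ[ℚ] K) (x : id_ES S K) :
    ((fq_thetaE S K σ x : id_ES S K) : Kˣ) = fq_thetaK K σ (x : Kˣ) := rfl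

theorem fq_nuE_coe (σ : K ≃ₐ[ℚ] K) (p : ℕ) (x : id_ES S K) :
    ((fq_nuE S K σ p x : id_ES S K) : Kˣ) = fq_nuK K σ p (x : Kˣ) := rfl

theorem fq_iota_thetaE (σ : K ≃ₐ[ℚ] K) (x : id_ES S K) :
    fq_iota S K (fq_thetaE S K σ x) = fq_thetaJ S K σ (fq_iota S K x) := by
  rw [fq_iota_apply, fq_iota_apply, fq_thetaE_coe]
  exact fq_diagS_theta S K σ _

theorem fq_iota_nuE (σ : K ≃ₐ[ℚ] K) (p : ℕ) (x : id_ES S K) :
    fq_iota S K (fq_nuE S K σ p x) = fq_nuJ S K σ p (fq_iota S K x) := by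
  rw [fq_iota_apply, fq_iota_apply, fq_nuE_coe]
  exact fq_diagS_nu S K σ p _

end Fermat.Agent.S55
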