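import Fermat.Agent.S55.SUnit.SemilocalRing

/-!
# S55 / G1: Herbrand indices of the units of a reduced artinian ring from those of its
residue fields at the stable maximal ideals

For a commutative ring `A` and `τ : A ≃+* A`: `hq_thetaU τ x = τ x / x`,
`hq_nuU τ p x = ∏_{k<p} τ^k x` on `Aˣ`.  For `R` reduced artinian, `σ ^ p = 1` with `p` prime:
if for every `σ`-stable maximal ideal `𝔪` the induced automorphism `hq_resAut σ 𝔪` of `R ⧸ 𝔪`
has `h0 = p`, `h1 = 1`, then `h0 (Rˣ) = p ^ #{stable 𝔪}` and `h1 (Rˣ) = 1`.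
-/

set_option autoImplicit false
set_option linter.unusedSectionVars false
set_option linter.style.haveILetI false

open Finset

noncomputable section

namespace Fermat.Agent.S55

section Defs

variable {A : Type*} [CommRing A]

/-- `θ x = τ x / x` on the units of a ring with an automorphism. -/
def hq_thetaU (τ : A ≃+* A) : Aˣ →* Aˣ where
  toFun x := hq_unitsAut τ x / x
  map_one' := by simp
  map_mul' x y := by rw [map_mul, mul_div_mul_comm]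

/-- `ν x = ∏_{k<p} τ^k x` on the units of a ring with an automorphism. -/
def hq_nuU (τ : A ≃+* A) (p : ℕ) : Aˣ →* Aˣ where
  toFun x := ∏ k ∈ range p, (hq_unitsAut τ ^ k) x
  map_one' := by simp
  map_mul' x y := by simp only [map_mul, prod_mul_distrib]

theorem hq_thetaU_apply (τ : A ≃+* A) (x : Aˣ) : hq_thetaU τ x = hq_unitsAut τ x / x := rfl

theorem hq_nuU_apply (τ : A ≃+* A) (p : ℕ) (x : Aˣ) :
    hq_nuU τ p x = ∏ k ∈ range p, (hq_unitsAut τ ^ k) x := rfl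

end Defs

section Ring

open scoped Classical

variable {R : Type*} [CommRing R]

/-- The automorphism of `R ⧸ 𝔪` induced by `σ`, for a `σ`-stable maximal ideal `𝔪`. -/
def hq_resAut (σ : R ≃+* R) (𝔪 : MaximalSpectrum R) (h : hq_specPerm σ 𝔪 = 𝔪) :
    (R ⧸ 𝔪.asIdeal) ≃+* (R ⧸ 𝔪.asIdeal) :=
  Ideal.quotientEquiv 𝔪.asIdeal 𝔪.asIdeal σ (by
    have h1 : (hq_specPerm σ 𝔪).asIdeal = 𝔪.asIdeal := by rw [h]
    conv_lhs => rw [← h1]
    exact Ideal.comap_symm σ)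

theorem hq_resAut_mk (σ : R ≃+* R) (𝔪 : MaximalSpectrum R) (h : hq_specPerm σ 𝔪 = 𝔪) (x : R) :
    hq_resAut σ 𝔪 h (Ideal.Quotient.mk 𝔪.asIdeal x) = Ideal.Quotient.mk 𝔪.asIdeal (σ x) := rfl

theorem hq_unitsMk_unitsAut (σ : R ≃+* R) (𝔪 : MaximalSpectrum R) (h : hq_specPerm σ 𝔪 = 𝔪)
    (x : Rˣ) :
    hq_unitsMk 𝔪 (hq_unitsAut σ x) = hq_unitsAut (hq_resAut σ 𝔪 h) (hq_unitsMk 𝔪 x) :=
  Units.ext rfl

theorem hq_unitsMk_unitsAut_pow (σ : R ≃+* R) (𝔪 : MaximalSpectrum R)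
    (h : hq_specPerm σ 𝔪 = 𝔪) (k : ℕ) (x : Rˣ) :
    hq_unitsMk 𝔪 ((hq_unitsAut σ ^ k) x) =
      (hq_unitsAut (hq_resAut σ 𝔪 h) ^ k) (hq_unitsMk 𝔪 x) := by
  induction k with
  | zero => simp
  | succ k ih =>
    rw [pow_succ', MulAut.mul_apply, hq_unitsMk_unitsAut σ 𝔪 h, ih, pow_succ', MulAut.mul_apply]

variable [IsArtinianRing R] [IsReduced R]

theorem hq_semilocal_ring_of_local [Fintype (MaximalSpectrum R)] (σ : R ≃+* R) (p : ℕ)
    [hp : Fact p.Prime] (hσ : σ ^ p = 1)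
    (hloc : ∀ (𝔪 : MaximalSpectrum R) (h : hq_specPerm σ 𝔪 = 𝔪),
      (hq_nuU (hq_resAut σ 𝔪 h) p).range.relIndex (hq_thetaU (hq_resAut σ 𝔪 h)).ker = p ∧
      (hq_thetaU (hq_resAut σ 𝔪 h)).range.relIndex (hq_nuU (hq_resAut σ 𝔪 h) p).ker = 1) :
    (hq_nuU σ p).range.relIndex (hq_thetaU σ).ker
        = p ^ Fintype.card {𝔪 : MaximalSpectrum R // hq_specPerm σ 𝔪 = 𝔪} ∧
      (hq_thetaU σ).range.relIndex (hq_nuU σ p).ker = 1 := by
  have key := hq_semilocal_ring σ p hσ (hq_thetaU σ) (hq_nuU σ p) (fun _ => rfl) (fun _ => rfl)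
    (fun 𝔪 => hq_thetaU (hq_resAut σ 𝔪.1 𝔪.2)) (fun 𝔪 => hq_nuU (hq_resAut σ 𝔪.1 𝔪.2) p)
    (fun x 𝔪 => by
      rw [hq_thetaU_apply, hq_thetaU_apply, map_div, hq_unitsMk_unitsAut σ 𝔪.1 𝔪.2])
    (fun x 𝔪 => by
      rw [hq_nuU_apply, hq_nuU_apply, map_prod]
      exact Finset.prod_congr rfl fun k _ => hq_unitsMk_unitsAut_pow σ 𝔪.1 𝔪.2 k x)
  rw [key.1, key.2]
  constructor
  · rw [Finset.prod_congr rfl fun 𝔪 _ => (hloc 𝔪.1 𝔪.2).1, Finset.prod_const, Finset.card_univ]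
  · rw [Finset.prod_congr rfl fun 𝔪 _ => (hloc 𝔪.1 𝔪.2).2, Finset.prod_const_one]

end Ring

end Fermat.Agent.S55
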