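import Fermat.Agent.S55.G1.Exact
import Fermat.Agent.S55.G1.Semilocal
import Fermat.Agent.S55.SUnit.HerbrandPi

/-!
# S55 / G1: Herbrand indices of `J_S = ∏_{q ∈ S} (ℚ_q ⊗ K)ˣ`

from the local indices at the `σ`-stable maximal ideals of the semilocal algebras `ℚ_q ⊗ K`.
-/

set_option autoImplicit false
set_option linter.unusedSectionVars false
set_option linter.style.haveILetI false

open scoped TensorProduct NumberField
open Finset

noncomputable section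

namespace Fermat.Agent.S55

universe u

variable (S : Finset Nat.Primes) (K : Type u) [Field K] [NumberField K]

/-- The ring automorphism of `ℚ_q ⊗ K` induced by `σ`. -/
def fq_ringAut (q : Nat.Primes) (σ : K ≃ₐ[ℚ] K) : id_A K q ≃+* id_A K q :=
  (ga_act ℚ_[(q : ℕ)] σ).toRingEquiv

theorem fq_ringAut_apply (q : Nat.Primes) (σ : K ≃ₐ[ℚ] K) (z : id_A K q) :
    fq_ringAut K q σ z = σ • z := rfl

theorem fq_ringAut_mul (q : Nat.Primes) (σ τ : K ≃ₐ[ℚ] K) :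
    fq_ringAut K q (σ * τ) = fq_ringAut K q σ * fq_ringAut K q τ := by
  ext z
  rw [RingAut.mul_apply, fq_ringAut_apply, fq_ringAut_apply, fq_ringAut_apply, mul_smul]

theorem fq_ringAut_one (q : Nat.Primes) : fq_ringAut K q (1 : K ≃ₐ[ℚ] K) = 1 := by
  ext z
  rw [fq_ringAut_apply, one_smul]
  rfl

theorem fq_ringAut_pow (q : Nat.Primes) (σ : K ≃ₐ[ℚ] K) (k : ℕ) :
    fq_ringAut K q σ ^ k = fq_ringAut K q (σ ^ k) := by
  induction k with
  | zero => rw [pow_zero, pow_zero, fq_ringAut_one]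
  | succ k ih => rw [pow_succ, pow_succ, fq_ringAut_mul, ih]

instance fq_isArtinianRing (q : Nat.Primes) : IsArtinianRing (id_A K q) :=
  IsArtinianRing.of_finite ℚ_[(q : ℕ)] _

instance fq_isReduced (q : Nat.Primes) : IsReduced (id_A K q) := by
  have : Algebra.FormallyUnramified ℚ K := Algebra.FormallyUnramified.of_isSeparable ℚ K
  have : Algebra.FormallyUnramified ℚ_[(q : ℕ)] (id_A K q) := inferInstance
  exact Algebra.FormallyUnramified.isReduced_of_field ℚ_[(q : ℕ)] _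

instance fq_fintypeMaxSpec (q : Nat.Primes) : Fintype (MaximalSpectrum (id_A K q)) :=
  Fintype.ofFinite _

/-- `θ` on `(ℚ_q ⊗ K)ˣ`. -/
def fq_thetaA (q : Nat.Primes) (σ : K ≃ₐ[ℚ] K) : (id_A K q)ˣ →* (id_A K q)ˣ :=
  fq_theta (M := (id_A K q)ˣ) σ

/-- `ν` on `(ℚ_q ⊗ K)ˣ`. -/
def fq_nuA (q : Nat.Primes) (σ : K ≃ₐ[ℚ] K) (p : ℕ) : (id_A K q)ˣ →* (id_A K q)ˣ :=
  fq_nu (M := (id_A K q)ˣ) σ p

theorem fq_smul_eq_unitsAut (q : Nat.Primes) (σ : K ≃ₐ[ℚ] K) (x : (id_A K q)ˣ) :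
    σ • x = hq_unitsAut (fq_ringAut K q σ) x := Units.ext rfl

theorem fq_thetaA_eq (q : Nat.Primes) (σ : K ≃ₐ[ℚ] K) :
    fq_thetaA K q σ = hq_thetaU (fq_ringAut K q σ) := by
  ext x : 1
  change σ • x / x = hq_unitsAut (fq_ringAut K q σ) x / x
  rw [fq_smul_eq_unitsAut]

theorem fq_nuA_eq (q : Nat.Primes) (σ : K ≃ₐ[ℚ] K) (p : ℕ) :
    fq_nuA K q σ p = hq_nuU (fq_ringAut K q σ) p := by
  ext x : 1
  change ∏ k ∈ range p, σ ^ k • x = ∏ k ∈ range p, (hq_unitsAut (fq_ringAut K q σ) ^ k) x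
  refine prod_congr rfl fun k _ => ?_
  apply Units.ext
  rw [hq_unitsAut_pow_coe, fq_ringAut_pow]
  rfl

/-- The number of `σ`-stable maximal ideals of `ℚ_q ⊗ K`. -/
def fq_numStable (q : Nat.Primes) (σ : K ≃ₐ[ℚ] K) : ℕ :=
  open Classical in
  Fintype.card {𝔪 : MaximalSpectrum (id_A K q) // hq_specPerm (fq_ringAut K q σ) 𝔪 = 𝔪}

/-- The local hypothesis at `q`: at every `σ`-stable maximal ideal `𝔪` of `ℚ_q ⊗ K`, the residue
field with its induced automorphism has `h0 = p` and `h1 = 1` (local norm index theorem and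
Hilbert 90). -/
def fq_LocalHyp (q : Nat.Primes) (σ : K ≃ₐ[ℚ] K) (p : ℕ) : Prop :=
  ∀ (𝔪 : MaximalSpectrum (id_A K q)) (h : hq_specPerm (fq_ringAut K q σ) 𝔪 = 𝔪),
    (hq_nuU (hq_resAut (fq_ringAut K q σ) 𝔪 h) p).range.relIndex
        (hq_thetaU (hq_resAut (fq_ringAut K q σ) 𝔪 h)).ker = p ∧
    (hq_thetaU (hq_resAut (fq_ringAut K q σ) 𝔪 h)).range.relIndex
        (hq_nuU (hq_resAut (fq_ringAut K q σ) 𝔪 h) p).ker = 1

theorem fq_local_herbrand (q : Nat.Primes) (σ : K ≃ₐ[ℚ] K) (p : ℕ) [hp : Fact p.Prime]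
    (hσ : σ ^ p = 1) (hloc : fq_LocalHyp K q σ p) :
    (fq_nuA K q σ p).range.relIndex (fq_thetaA K q σ).ker = p ^ fq_numStable K q σ ∧
      (fq_thetaA K q σ).range.relIndex (fq_nuA K q σ p).ker = 1 := by
  classical
  rw [fq_thetaA_eq, fq_nuA_eq]
  have hσ' : fq_ringAut K q σ ^ p = 1 := by rw [fq_ringAut_pow, hσ, fq_ringAut_one]
  have key := hq_semilocal_ring_of_local (fq_ringAut K q σ) p hσ' hloc
  refine ⟨?_, key.2⟩
  rw [key.1, fq_numStable]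

theorem fq_thetaJ_comp (σ : K ≃ₐ[ℚ] K) (x : id_JS S K) (q : S) :
    fq_thetaJ S K σ x q = fq_thetaA K q.1 σ (x q) := by
  rw [fq_thetaJ_apply, Pi.div_apply, Pi.smul_apply]
  rfl

theorem fq_nuJ_comp (σ : K ≃ₐ[ℚ] K) (p : ℕ) (x : id_JS S K) (q : S) :
    fq_nuJ S K σ p x q = fq_nuA K q.1 σ p (x q) := by
  rw [fq_nuJ_apply, Finset.prod_apply]
  rfl

/-- The Herbrand indices of `J_S = ∏_{q ∈ S} (ℚ_q ⊗ K)ˣ`. -/
theorem fq_JS_herbrand (σ : K ≃ₐ[ℚ] K) (p : ℕ) [hp : Fact p.Prime] (hσ : σ ^ p = 1)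
    (hloc : ∀ q ∈ S, fq_LocalHyp K q σ p) :
    (fq_nuJ S K σ p).range.relIndex (fq_thetaJ S K σ).ker = p ^ ∑ q ∈ S, fq_numStable K q σ ∧
      (fq_thetaJ S K σ).range.relIndex (fq_nuJ S K σ p).ker = 1 := by
  have hfg : ∀ x, fq_thetaJ S K σ (fq_nuJ S K σ p x) = 1 := fq_theta_nu (M := id_JS S K) σ p hσ
  have hgf : ∀ x, fq_nuJ S K σ p (fq_thetaJ S K σ x) = 1 := fq_nu_theta (M := id_JS S K) σ p hσ
  have htriv : ∀ (u v : id_JS S K →* id_JS S K),
      ∀ x ∈ (MonoidHom.id (id_JS S K)).ker, u x = 1 →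
        ∃ y ∈ (MonoidHom.id (id_JS S K)).ker, v y = x := by
    intro u v x hx _
    refine ⟨1, one_mem _, ?_⟩
    rw [map_one]
    exact ((MonoidHom.mem_ker).1 hx).symm
  have h0 := hq_relIndex_of_surjective_pi (M := id_JS S K) (ι := S)
    (M' := fun q : S => (id_A K q.1)ˣ) (MonoidHom.id _) Function.surjective_id
    (fq_thetaJ S K σ) (fq_nuJ S K σ p) (fun q => fq_thetaA K q.1 σ) (fun q => fq_nuA K q.1 σ p)
    (fun x q => fq_thetaJ_comp S K σ x q) (fun x q => fq_nuJ_comp S K σ p x q)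
    hfg hgf (htriv _ _) (htriv _ _)
  have h1 := hq_relIndex_of_surjective_pi (M := id_JS S K) (ι := S)
    (M' := fun q : S => (id_A K q.1)ˣ) (MonoidHom.id _) Function.surjective_id
    (fq_nuJ S K σ p) (fq_thetaJ S K σ) (fun q => fq_nuA K q.1 σ p) (fun q => fq_thetaA K q.1 σ)
    (fun x q => fq_nuJ_comp S K σ p x q) (fun x q => fq_thetaJ_comp S K σ x q)
    hgf hfg (htriv _ _) (htriv _ _)
  have hq0 : ∀ q : S, (fq_nuA K q.1 σ p).range.relIndex (fq_thetaA K q.1 σ).ker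
      = p ^ fq_numStable K q.1 σ := fun q => (fq_local_herbrand K q.1 σ p hσ (hloc q.1 q.2)).1
  have hq1 : ∀ q : S, (fq_thetaA K q.1 σ).range.relIndex (fq_nuA K q.1 σ p).ker = 1 :=
    fun q => (fq_local_herbrand K q.1 σ p hσ (hloc q.1 q.2)).2
  refine ⟨h0.trans ?_, h1.trans ?_⟩
  · calc ∏ q : S, (fq_nuA K q.1 σ p).range.relIndex (fq_thetaA K q.1 σ).ker
        = ∏ q : S, p ^ fq_numStable K q.1 σ := Finset.prod_congr rfl fun q _ => hq0 q
      _ = p ^ ∑ q : S, fq_numStable K q.1 σ := Finset.prod_pow_eq_pow_sum _ _ _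
      _ = p ^ ∑ q ∈ S, fq_numStable K q σ := by
        rw [Finset.sum_coe_sort S (fun q => fq_numStable K q σ)]
  · calc ∏ q : S, (fq_thetaA K q.1 σ).range.relIndex (fq_nuA K q.1 σ p).ker
        = ∏ _q : S, 1 := Finset.prod_congr rfl fun q _ => hq1 q
      _ = 1 := Finset.prod_const_one

end Fermat.Agent.S55
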