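import Mathlib
import Fermat.Agent.S55.Idele.Defs
import Fermat.Agent.S55.Idele.Semilocal
import Fermat.Agent.S55.Local.Main
import Fermat.Agent.S55.LocalQ.IsLocal
import Fermat.Agent.S55.SUnit.SemilocalRing
import Fermat.Agent.S55.SUnit.HerbrandPi

/-!
# S55 / block [G1]: the local Herbrand quotient at the `σ`-stable maximal ideals of `ℚ_q ⊗ K`

* `fq_lh_local`: for a finite extension `F` of `ℚ_[q]` with an automorphism `τ` of prime order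
  `p`: `h⁰(Fˣ) = p`, `h¹(Fˣ) = 1` (explicit subgroup-index form).
* `fq_lh_semilocal`: for a number field `K`, `σ : K ≃ₐ[ℚ] K` of prime order `p`:
  `h⁰((ℚ_q ⊗ K)ˣ) = p ^ #{σ-stable maximal ideals}`, `h¹ = 1`.
* `fq_lh_JS`: the same for `id_JS S K = ∏_{q ∈ S} (ℚ_q ⊗ K)ˣ`.
-/

set_option autoImplicit false
set_option linter.unusedSectionVars false
set_option linter.style.haveILetI false

open scoped TensorProduct NumberField Pointwise
open Finset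

noncomputable section

namespace Fermat.Agent.S55

/-! ### The fixed field of one automorphism (generic) -/

section FixedCyclic

variable {k F : Type*} [Field k] [Field F] [Algebra k F] [FiniteDimensional k F]
  (τ : F ≃ₐ[k] F)

/-- The fixed field of `τ`. -/
abbrev fq_lh_E : IntermediateField k F := IntermediateField.fixedField (Subgroup.zpowers τ)

instance fq_lh_isGalois : IsGalois (fq_lh_E τ) F :=
  IsGalois.of_fixed_field F (Subgroup.zpowers τ)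

theorem fq_lh_fixed_zpow (n : ℤ) (x : fq_lh_E τ) : (τ ^ n) (x : F) = x :=
  (IntermediateField.mem_fixedField_iff _ _).1 x.2 (τ ^ n) (Subgroup.zpow_mem_zpowers τ n)

theorem fq_lh_fixed (x : fq_lh_E τ) : τ (x : F) = x := by
  have := fq_lh_fixed_zpow τ 1 x
  rwa [zpow_one] at this

/-- `τ` as an element of `Gal(F/E)`. -/
def fq_lh_gen : Gal(F/fq_lh_E τ) :=
  AlgEquiv.ofRingEquiv (f := (τ : F ≃+* F)) (fun x => fq_lh_fixed τ x)

@[simp] theorem fq_lh_gen_apply (x : F) : fq_lh_gen τ x = τ x := rfl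

theorem fq_lh_restrict_gen : AlgEquiv.restrictScalarsHom k (fq_lh_gen τ) = τ := by
  ext x
  rfl

theorem fq_lh_gen_zpow_apply (n : ℤ) (x : F) : (fq_lh_gen τ ^ n) x = (τ ^ n) x := by
  have h := map_zpow (AlgEquiv.restrictScalarsHom k) (fq_lh_gen τ) n
  rw [fq_lh_restrict_gen] at h
  exact congrArg (fun f : F ≃ₐ[k] F => f x) h

theorem fq_lh_gen_pow_apply (n : ℕ) (x : F) : (fq_lh_gen τ ^ n) x = (τ ^ n) x := by
  have := fq_lh_gen_zpow_apply τ (n : ℤ) x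
  rwa [zpow_natCast, zpow_natCast] at this

theorem fq_lh_gen_generates (g : Gal(F/fq_lh_E τ)) : g ∈ Subgroup.zpowers (fq_lh_gen τ) := by
  have h1 : AlgEquiv.restrictScalarsHom k g ∈ (fq_lh_E τ).fixingSubgroup := by
    rw [IntermediateField.mem_fixingSubgroup_iff]
    intro x hx
    exact g.commutes ⟨x, hx⟩
  rw [IntermediateField.fixingSubgroup_fixedField] at h1
  obtain ⟨n, hn⟩ := Subgroup.mem_zpowers_iff.1 h1
  refine Subgroup.mem_zpowers_iff.2 ⟨n, ?_⟩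
  ext x
  rw [fq_lh_gen_zpow_apply, hn]
  rfl

theorem fq_lh_finrank : Module.finrank (fq_lh_E τ) F = orderOf τ := by
  rw [IntermediateField.finrank_fixedField_eq_card, Nat.card_zpowers]

theorem fq_lh_orderOf_gen : orderOf (fq_lh_gen τ) = orderOf τ := by
  rw [← fq_lh_restrict_gen τ]
  exact (orderOf_injective (AlgEquiv.restrictScalarsHom k)
    (AlgEquiv.restrictScalarsHom_injective k) (fq_lh_gen τ)).symm

/-- The product over `Gal(F/E)` is the product over the powers of `τ`. -/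
theorem fq_lh_prod_gal {M : Type*} [CommMonoid M] (φ : Gal(F/fq_lh_E τ) → M) :
    ∏ g : Gal(F/fq_lh_E τ), φ g = ∏ n ∈ range (orderOf τ), φ (fq_lh_gen τ ^ n) := by
  classical
  rw [← fq_lh_orderOf_gen τ]
  have hfin : IsOfFinOrder (fq_lh_gen τ) := isOfFinOrder_of_finite _
  have himage : (range (orderOf (fq_lh_gen τ))).image (fun n => fq_lh_gen τ ^ n) = univ := by
    ext g
    simp only [mem_univ, iff_true]
    exact (hfin.mem_zpowers_iff_mem_range_orderOf).1 (fq_lh_gen_generates τ g)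
  rw [← himage, prod_image]
  intro a ha b hb hab
  exact pow_injOn_Iio_orderOf (by simpa using ha) (by simpa using hb) hab

end FixedCyclic

/-! ### The local Herbrand quotient -/

section Local

variable {q : ℕ} [Fact q.Prime] {F : Type} [Field F] [Algebra ℚ_[q] F]
  [FiniteDimensional ℚ_[q] F]

/-- **Local Herbrand quotient**: for a finite extension `F` of `ℚ_[q]` with an automorphism `τ`
of prime order `p`, `h⁰(Fˣ) = p` and `h¹(Fˣ) = 1` for `f' u = τ u / u`, `g' u = ∏_{k<p} τ^k u`. -/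
theorem fq_lh_local (τ : F ≃ₐ[ℚ_[q]] F) (p : ℕ) (hτ : orderOf τ = p)
    (f' g' : Fˣ →* Fˣ) (hf : ∀ u : Fˣ, ((f' u : Fˣ) : F) = τ (u : F) / (u : F))
    (hg : ∀ u : Fˣ, ((g' u : Fˣ) : F) = ∏ n ∈ range p, (τ ^ n) (u : F)) :
    g'.range.relIndex f'.ker = p ∧ f'.range.relIndex g'.ker = 1 := by
  have hloc : lf_IsLocal (fq_lh_E τ) F (lq_valOf (q := q) F) := lq_isLocalOf F (fq_lh_E τ)
  obtain ⟨h0, h1⟩ := lf_herbrand hloc (fq_lh_gen τ) (fq_lh_gen_generates τ)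
  rw [fq_lh_finrank, hτ] at h0
  have ef : lf_D (fq_lh_gen τ) = f' := by
    ext u
    rw [lf_D_coe, hf, fq_lh_gen_apply]
  have eg : lf_N (fq_lh_E τ) = g' := by
    ext u
    rw [lf_N_apply, hg, fq_lh_prod_gal τ (fun g => lf_act g u), hτ, Units.coe_prod]
    refine prod_congr rfl fun n _ => ?_
    rw [lf_act_coe, fq_lh_gen_pow_apply]
  rw [ef, eg] at h0 h1
  exact ⟨h0, h1⟩

end Local

/-! ### Residue fields of a finite reduced `ℚ_[q]`-algebra at the stable maximal ideals -/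

section Residue

open scoped Classical

variable {q : ℕ} [Fact q.Prime] {R : Type} [CommRing R] [Algebra ℚ_[q] R]
  [Module.Finite ℚ_[q] R] [IsArtinianRing R] [IsReduced R]

theorem fq_lh_stable_eq_map (σ : R ≃ₐ[ℚ_[q]] R) (𝔪 : MaximalSpectrum R)
    (h : hq_specPerm σ.toRingEquiv 𝔪 = 𝔪) :
    𝔪.asIdeal = 𝔪.asIdeal.map ((σ : R ≃ₐ[ℚ_[q]] R) : R →+* R) := by
  ext x
  have hx : x ∈ 𝔪.asIdeal ↔ σ.toRingEquiv.symm x ∈ 𝔪.asIdeal := by
    have := hq_mem_specPerm σ.toRingEquiv 𝔪 x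
    rw [h] at this
    exact this
  rw [hx]
  have h2 := Ideal.map_comap_of_equiv (I := 𝔪.asIdeal) σ.toRingEquiv
  have h3 : x ∈ 𝔪.asIdeal.map (σ.toRingEquiv : R →+* R) ↔ σ.toRingEquiv.symm x ∈ 𝔪.asIdeal := by
    rw [h2]; rfl
  exact h3.symm

/-- The automorphism of the residue field at a stable maximal ideal. -/
def fq_lh_resAut (σ : R ≃ₐ[ℚ_[q]] R) (𝔪 : MaximalSpectrum R)
    (h : hq_specPerm σ.toRingEquiv 𝔪 = 𝔪) :
    (R ⧸ 𝔪.asIdeal) ≃ₐ[ℚ_[q]] (R ⧸ 𝔪.asIdeal) :=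
  Ideal.quotientEquivAlg 𝔪.asIdeal 𝔪.asIdeal σ (fq_lh_stable_eq_map σ 𝔪 h)

theorem fq_lh_resAut_mk (σ : R ≃ₐ[ℚ_[q]] R) (𝔪 : MaximalSpectrum R)
    (h : hq_specPerm σ.toRingEquiv 𝔪 = 𝔪) (x : R) :
    fq_lh_resAut σ 𝔪 h (Ideal.Quotient.mk 𝔪.asIdeal x) = Ideal.Quotient.mk 𝔪.asIdeal (σ x) :=
  rfl

theorem fq_lh_resAut_pow_mk (σ : R ≃ₐ[ℚ_[q]] R) (𝔪 : MaximalSpectrum R)
    (h : hq_specPerm σ.toRingEquiv 𝔪 = 𝔪) (n : ℕ) (x : R) :
    (fq_lh_resAut σ 𝔪 h ^ n) (Ideal.Quotient.mk 𝔪.asIdeal x) =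
      Ideal.Quotient.mk 𝔪.asIdeal ((σ ^ n) x) := by
  induction n generalizing x with
  | zero => simp
  | succ n ih =>
    rw [pow_succ, AlgEquiv.mul_apply, fq_lh_resAut_mk, ih, pow_succ, AlgEquiv.mul_apply]

theorem fq_lh_orderOf_resAut (σ : R ≃ₐ[ℚ_[q]] R) (𝔪 : MaximalSpectrum R)
    (h : hq_specPerm σ.toRingEquiv 𝔪 = 𝔪) (p : ℕ) [hp : Fact p.Prime] (hσ : σ ^ p = 1)
    (hfaith : ∃ x : R, σ x - x ∉ 𝔪.asIdeal) : orderOf (fq_lh_resAut σ 𝔪 h) = p := by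
  apply orderOf_eq_prime
  · ext y
    obtain ⟨x, rfl⟩ := Ideal.Quotient.mk_surjective y
    rw [fq_lh_resAut_pow_mk, hσ]
    rfl
  · intro h1
    obtain ⟨x, hx⟩ := hfaith
    apply hx
    have h2 := congrArg (fun τ : (R ⧸ 𝔪.asIdeal) ≃ₐ[ℚ_[q]] (R ⧸ 𝔪.asIdeal) =>
      τ (Ideal.Quotient.mk 𝔪.asIdeal x)) h1
    simp only [fq_lh_resAut_mk, AlgEquiv.one_apply] at h2
    exact Ideal.Quotient.eq.1 h2

/-- The map induced on units by an algebra automorphism. -/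
def fq_lh_um {A : Type*} [CommRing A] [Algebra ℚ_[q] A] (τ : A ≃ₐ[ℚ_[q]] A) : Aˣ →* Aˣ :=
  Units.map ((τ : A ≃ₐ[ℚ_[q]] A) : A →* A)

@[simp] theorem fq_lh_um_coe {A : Type*} [CommRing A] [Algebra ℚ_[q] A] (τ : A ≃ₐ[ℚ_[q]] A)
    (u : Aˣ) : ((fq_lh_um τ u : Aˣ) : A) = τ (u : A) := rfl

theorem fq_lh_toRingEquiv_pow (σ : R ≃ₐ[ℚ_[q]] R) (n : ℕ) (x : R) :
    (σ.toRingEquiv ^ n) x = (σ ^ n) x := by
  induction n generalizing x with
  | zero => rfl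
  | succ n ih => rw [pow_succ, pow_succ, RingAut.mul_apply, AlgEquiv.mul_apply, ih]; rfl

/-- The local Herbrand quotient at a stable maximal ideal. -/
theorem fq_lh_residue (σ : R ≃ₐ[ℚ_[q]] R) (𝔪 : MaximalSpectrum R)
    (h : hq_specPerm σ.toRingEquiv 𝔪 = 𝔪) (p : ℕ) [hp : Fact p.Prime] (hσ : σ ^ p = 1)
    (hfaith : ∃ x : R, σ x - x ∉ 𝔪.asIdeal)
    (f' g' : (R ⧸ 𝔪.asIdeal)ˣ →* (R ⧸ 𝔪.asIdeal)ˣ)
    (hf : ∀ u, f' u = fq_lh_um (fq_lh_resAut σ 𝔪 h) u / u)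
    (hg : ∀ u, g' u = ∏ n ∈ range p, fq_lh_um (fq_lh_resAut σ 𝔪 h ^ n) u) :
    g'.range.relIndex f'.ker = p ∧ f'.range.relIndex g'.ker = 1 := by
  haveI := 𝔪.isMaximal
  letI : Field (R ⧸ 𝔪.asIdeal) := Ideal.Quotient.field 𝔪.asIdeal
  haveI : FiniteDimensional ℚ_[q] (R ⧸ 𝔪.asIdeal) :=
    Module.Finite.of_surjective (Ideal.Quotient.mkₐ ℚ_[q] 𝔪.asIdeal).toLinearMap
      (Ideal.Quotient.mkₐ_surjective ℚ_[q] 𝔪.asIdeal)
  refine fq_lh_local (fq_lh_resAut σ 𝔪 h) p (fq_lh_orderOf_resAut σ 𝔪 h p hσ hfaith) f' g' ?_ ?_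
  · intro u
    rw [hf, Units.val_div_eq_div_val]
    rfl
  · intro u
    rw [hg, Units.coe_prod]
    rfl

/-- **Semilocal Herbrand quotient**, abstract form: `R` a finite reduced `ℚ_[q]`-algebra, `σ` an
automorphism with `σ ^ p = 1` acting faithfully on the residue fields at the stable maximal
ideals: `h⁰(Rˣ) = p ^ #{stable 𝔪}`, `h¹(Rˣ) = 1`. -/
theorem fq_lh_semilocal_abstract (σ : R ≃ₐ[ℚ_[q]] R) (p : ℕ) [hp : Fact p.Prime]
    (hσ : σ ^ p = 1)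
    (hfaith : ∀ 𝔪 : MaximalSpectrum R, hq_specPerm σ.toRingEquiv 𝔪 = 𝔪 →
      ∃ x : R, σ x - x ∉ 𝔪.asIdeal)
    (f g : Rˣ →* Rˣ) (hf : ∀ x, f x = hq_unitsAut σ.toRingEquiv x / x)
    (hg : ∀ x, g x = ∏ n ∈ range p, (hq_unitsAut σ.toRingEquiv ^ n) x) :
    g.range.relIndex f.ker =
        p ^ Nat.card {𝔪 : MaximalSpectrum R // hq_specPerm σ.toRingEquiv 𝔪 = 𝔪} ∧
      f.range.relIndex g.ker = 1 := by
  haveI : Finite (MaximalSpectrum R) := inferInstance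
  letI : Fintype (MaximalSpectrum R) := Fintype.ofFinite _
  let f' : ∀ 𝔪 : {𝔪 : MaximalSpectrum R // hq_specPerm σ.toRingEquiv 𝔪 = 𝔪},
      (R ⧸ 𝔪.1.asIdeal)ˣ →* (R ⧸ 𝔪.1.asIdeal)ˣ := fun 𝔪 =>
    fq_lh_um (fq_lh_resAut σ 𝔪.1 𝔪.2) / MonoidHom.id _
  let g' : ∀ 𝔪 : {𝔪 : MaximalSpectrum R // hq_specPerm σ.toRingEquiv 𝔪 = 𝔪},
      (R ⧸ 𝔪.1.asIdeal)ˣ →* (R ⧸ 𝔪.1.asIdeal)ˣ := fun 𝔪 =>
    ∏ n ∈ range p, fq_lh_um (fq_lh_resAut σ 𝔪.1 𝔪.2 ^ n)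
  have hσ' : σ.toRingEquiv ^ p = 1 := by
    ext x
    rw [fq_lh_toRingEquiv_pow, hσ]
    rfl
  have hpow : ∀ (n : ℕ) (x : Rˣ), (((hq_unitsAut σ.toRingEquiv ^ n) x : Rˣ) : R) =
      (σ ^ n) (x : R) := by
    intro n x
    rw [hq_unitsAut_pow_coe, fq_lh_toRingEquiv_pow]
  have hf' : ∀ x (𝔪 : {𝔪 : MaximalSpectrum R // hq_specPerm σ.toRingEquiv 𝔪 = 𝔪}),
      hq_unitsMk 𝔪.1 (f x) = f' 𝔪 (hq_unitsMk 𝔪.1 x) := by
    intro x 𝔪
    rw [hf, map_div]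
    change _ = fq_lh_um (fq_lh_resAut σ 𝔪.1 𝔪.2) (hq_unitsMk 𝔪.1 x) / hq_unitsMk 𝔪.1 x
    congr 1
  have hg' : ∀ x (𝔪 : {𝔪 : MaximalSpectrum R // hq_specPerm σ.toRingEquiv 𝔪 = 𝔪}),
      hq_unitsMk 𝔪.1 (g x) = g' 𝔪 (hq_unitsMk 𝔪.1 x) := by
    intro x 𝔪
    rw [hg, map_prod]
    change _ = (∏ n ∈ range p, fq_lh_um (fq_lh_resAut σ 𝔪.1 𝔪.2 ^ n)) (hq_unitsMk 𝔪.1 x)
    rw [MonoidHom.finsetProd_apply]
    refine prod_congr rfl fun n _ => ?_
    apply Units.ext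
    rw [hq_unitsMk_coe, hpow, fq_lh_um_coe, hq_unitsMk_coe]
    exact (fq_lh_resAut_pow_mk σ 𝔪.1 𝔪.2 n (x : R)).symm
  obtain ⟨h0, h1⟩ := hq_semilocal_ring σ.toRingEquiv p hσ' f g hf hg f' g' hf' hg'
  have hloc : ∀ 𝔪 : {𝔪 : MaximalSpectrum R // hq_specPerm σ.toRingEquiv 𝔪 = 𝔪},
      (g' 𝔪).range.relIndex (f' 𝔪).ker = p ∧ (f' 𝔪).range.relIndex (g' 𝔪).ker = 1 :=
    fun 𝔪 => fq_lh_residue σ 𝔪.1 𝔪.2 p hσ (hfaith 𝔪.1 𝔪.2) (f' 𝔪) (g' 𝔪)
      (fun _ => rfl) (fun _ => MonoidHom.finsetProd_apply _ _ _)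
  constructor
  · rw [h0, prod_congr rfl (fun 𝔪 _ => (hloc 𝔪).1), prod_const, card_univ,
      Nat.card_eq_fintype_card]
  · rw [h1, prod_congr rfl (fun 𝔪 _ => (hloc 𝔪).2), prod_const_one]

end Residue

/-! ### The semilocal algebra `ℚ_q ⊗ K` -/

section Tensor

variable (K : Type) [Field K] [NumberField K] (q : Nat.Primes) (σ : K ≃ₐ[ℚ] K)

theorem fq_lh_ga_act_pow (n : ℕ) : ga_act ℚ_[(q : ℕ)] σ ^ n = ga_act ℚ_[(q : ℕ)] (σ ^ n) := by
  induction n with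
  | zero => rw [pow_zero, pow_zero, ga_act_one]; rfl
  | succ n ih => rw [pow_succ, pow_succ, ih, ga_act_mul]; rfl

theorem fq_lh_faithful (hσ : σ ≠ 1) (𝔪 : MaximalSpectrum (id_A K q)) :
    ∃ x : id_A K q, ga_act ℚ_[(q : ℕ)] σ x - x ∉ 𝔪.asIdeal := by
  have : ∃ y : K, σ y ≠ y := by
    by_contra hcon
    exact hσ (AlgEquiv.ext fun y => not_not.1 fun hy => hcon ⟨y, hy⟩)
  obtain ⟨y, hy⟩ := this
  refine ⟨id_incl K q y, ?_⟩
  have h1 : ga_act ℚ_[(q : ℕ)] σ (id_incl K q y) - id_incl K q y = id_incl K q (σ y - y) := by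
    rw [map_sub, id_incl_apply, id_incl_apply, ga_act_tmul]
  rw [h1]
  have hu : IsUnit (id_incl K q (σ y - y)) :=
    IsUnit.map (id_incl K q) (isUnit_iff_ne_zero.2 (sub_ne_zero.2 hy))
  intro hmem
  exact 𝔪.isMaximal.ne_top (Ideal.eq_top_of_isUnit_mem _ hmem hu)

/-- **Herbrand quotient of `(ℚ_q ⊗ K)ˣ`** for `σ : K ≃ₐ[ℚ] K` of prime order `p`:
`h⁰ = p ^ #{σ-stable maximal ideals}`, `h¹ = 1`. -/
theorem fq_lh_semilocal (p : ℕ) [hp : Fact p.Prime] (hσ : orderOf σ = p)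
    (f g : (id_A K q)ˣ →* (id_A K q)ˣ) (hf : ∀ x, f x = σ • x / x)
    (hg : ∀ x, g x = ∏ n ∈ range p, σ ^ n • x) :
    g.range.relIndex f.ker =
        p ^ Nat.card {𝔪 : MaximalSpectrum (id_A K q) //
          hq_specPerm (ga_act ℚ_[(q : ℕ)] σ).toRingEquiv 𝔪 = 𝔪} ∧
      f.range.relIndex g.ker = 1 := by
  have hσ1 : σ ≠ 1 := by
    intro h
    rw [h, orderOf_one] at hσ
    exact hp.out.one_lt.ne hσ
  have hσp : ga_act ℚ_[(q : ℕ)] σ ^ p = 1 := by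
    rw [fq_lh_ga_act_pow, ← hσ, pow_orderOf_eq_one, ga_act_one]
    rfl
  refine fq_lh_semilocal_abstract (ga_act ℚ_[(q : ℕ)] σ) p hσp
    (fun 𝔪 _ => fq_lh_faithful K q σ hσ1 𝔪) f g ?_ ?_
  · intro x
    rw [hf]
    congr 1
  · intro x
    rw [hg]
    refine prod_congr rfl fun n _ => ?_
    apply Units.ext
    rw [hq_unitsAut_pow_coe, fq_lh_toRingEquiv_pow, fq_lh_ga_act_pow]
    rfl

/-! ### The `S`-adic ideles `∏_{q ∈ S} (ℚ_q ⊗ K)ˣ` -/

/-- The number of `σ`-stable maximal ideals of `ℚ_q ⊗ K`. -/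
def fq_lh_nStable : ℕ :=
  Nat.card {𝔪 : MaximalSpectrum (id_A K q) //
    hq_specPerm (ga_act ℚ_[(q : ℕ)] σ).toRingEquiv 𝔪 = 𝔪}

variable (S : Finset Nat.Primes)

/-- **Herbrand quotient of the `S`-adic ideles** `∏_{q ∈ S} (ℚ_q ⊗ K)ˣ`:
`h⁰ = p ^ ∑_{q ∈ S} #{σ-stable maximal ideals of ℚ_q ⊗ K}`, `h¹ = 1`. -/
theorem fq_lh_JS (p : ℕ) [hp : Fact p.Prime] (hσ : orderOf σ = p)
    (f g : id_JS S K →* id_JS S K) (hf : ∀ x, f x = σ • x / x)
    (hg : ∀ x, g x = ∏ n ∈ range p, σ ^ n • x) :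
    g.range.relIndex f.ker = p ^ ∑ q : S, fq_lh_nStable K q.1 σ ∧
      f.range.relIndex g.ker = 1 := by
  let fq : ∀ q : S, (id_A K q.1)ˣ →* (id_A K q.1)ˣ := fun q =>
    MulDistribMulAction.toMonoidHom _ σ / MonoidHom.id _
  let gq : ∀ q : S, (id_A K q.1)ˣ →* (id_A K q.1)ˣ := fun q =>
    ∏ n ∈ range p, MulDistribMulAction.toMonoidHom _ (σ ^ n)
  have hfq : ∀ (q : S) (x : (id_A K q.1)ˣ), fq q x = σ • x / x := fun _ _ => rfl
  have hgq : ∀ (q : S) (x : (id_A K q.1)ˣ), gq q x = ∏ n ∈ range p, σ ^ n • x := fun q x =>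
    MonoidHom.finsetProd_apply _ _ _
  have hfc : ∀ (x : id_JS S K) (q : S), f x q = fq q (x q) := by
    intro x q
    rw [hf, hfq]
    rfl
  have hgc : ∀ (x : id_JS S K) (q : S), g x q = gq q (x q) := by
    intro x q
    rw [hg, hgq, Finset.prod_apply]
    rfl
  have hloc := fun q : S => fq_lh_semilocal K q.1 σ p hσ (fq q) (gq q) (hfq q) (hgq q)
  have hfker : f.ker = Subgroup.pi Set.univ fun q => (fq q).ker := by
    ext x
    simp only [MonoidHom.mem_ker, Subgroup.mem_pi, Set.mem_univ, forall_const]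
    constructor
    · intro h q
      rw [← hfc, h]
      rfl
    · intro h
      funext q
      rw [hfc, h q]
      rfl
  have hgker : g.ker = Subgroup.pi Set.univ fun q => (gq q).ker := by
    ext x
    simp only [MonoidHom.mem_ker, Subgroup.mem_pi, Set.mem_univ, forall_const]
    constructor
    · intro h q
      rw [← hgc, h]
      rfl
    · intro h
      funext q
      rw [hgc, h q]
      rfl
  have hfrange : f.range = Subgroup.pi Set.univ fun q => (fq q).range := by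
    ext y
    simp only [MonoidHom.mem_range, Subgroup.mem_pi, Set.mem_univ, forall_const]
    constructor
    · rintro ⟨x, rfl⟩ q
      exact ⟨x q, (hfc x q).symm⟩
    · intro h
      choose x hx using h
      refine ⟨x, ?_⟩
      funext q
      rw [hfc, hx q]
  have hgrange : g.range = Subgroup.pi Set.univ fun q => (gq q).range := by
    ext y
    simp only [MonoidHom.mem_range, Subgroup.mem_pi, Set.mem_univ, forall_const]
    constructor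
    · rintro ⟨x, rfl⟩ q
      exact ⟨x q, (hgc x q).symm⟩
    · intro h
      choose x hx using h
      refine ⟨x, ?_⟩
      funext q
      rw [hgc, hx q]
  constructor
  · rw [hfker, hgrange, hq_relIndex_pi, prod_congr rfl (fun q _ => (hloc q).1),
      prod_pow_eq_pow_sum]
    rfl
  · rw [hgker, hfrange, hq_relIndex_pi, prod_congr rfl (fun q _ => (hloc q).2), prod_const_one]

end Tensor

end Fermat.Agent.S55
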