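import Fermat.Agent.S55.G1.Local
import Fermat.Agent.S55.G1.LocalHerbrand

/-!
# S55 / block [G1]: the local hypothesis `fq_LocalHyp` of `G1/Local.lean`

`fq_lh_localHyp : fq_LocalHyp K q σ p` for `σ : K ≃ₐ[ℚ] K` of prime order `p`: at every
`σ`-stable maximal ideal `𝔪` of `ℚ_q ⊗ K` the residue field with its induced automorphism has
`h⁰ = p`, `h¹ = 1` (local norm index theorem + Hilbert 90, `fq_lh_residue`).
-/

set_option autoImplicit false
set_option linter.unusedSectionVars false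

open scoped TensorProduct NumberField
open Finset

noncomputable section

namespace Fermat.Agent.S55

theorem fq_lh_algEquiv_toRingEquiv_pow {k A : Type*} [CommSemiring k] [CommRing A] [Algebra k A]
    (τ : A ≃ₐ[k] A) (n : ℕ) (x : A) : (τ.toRingEquiv ^ n) x = (τ ^ n) x := by
  induction n generalizing x with
  | zero => rfl
  | succ n ih => rw [pow_succ, pow_succ, RingAut.mul_apply, AlgEquiv.mul_apply, ih]; rfl

/-- The local hypothesis of `fq_JS_herbrand` holds. -/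
theorem fq_lh_localHyp (K : Type) [Field K] [NumberField K] (q : Nat.Primes) (σ : K ≃ₐ[ℚ] K)
    (p : ℕ) [hp : Fact p.Prime] (hσ : orderOf σ = p) : fq_LocalHyp K q σ p := by
  intro 𝔪 h
  have hσ1 : σ ≠ 1 := by
    intro h1
    rw [h1, orderOf_one] at hσ
    exact hp.out.one_lt.ne hσ
  have hσp : ga_act ℚ_[(q : ℕ)] σ ^ p = 1 := by
    rw [fq_lh_ga_act_pow, ← hσ, pow_orderOf_eq_one, ga_act_one]
    rfl
  have h' : hq_specPerm (ga_act ℚ_[(q : ℕ)] σ).toRingEquiv 𝔪 = 𝔪 := h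
  have hres : hq_resAut (fq_ringAut K q σ) 𝔪 h =
      (fq_lh_resAut (ga_act ℚ_[(q : ℕ)] σ) 𝔪 h').toRingEquiv := rfl
  refine fq_lh_residue (ga_act ℚ_[(q : ℕ)] σ) 𝔪 h' p hσp (fq_lh_faithful K q σ hσ1 𝔪)
    (hq_thetaU (hq_resAut (fq_ringAut K q σ) 𝔪 h)) (hq_nuU (hq_resAut (fq_ringAut K q σ) 𝔪 h) p)
    ?_ ?_
  · intro u
    rw [hq_thetaU_apply]
    congr 1
  · intro u
    rw [hq_nuU_apply]
    refine prod_congr rfl fun n _ => ?_
    apply Units.ext
    rw [hq_unitsAut_pow_coe, hres, fq_lh_algEquiv_toRingEquiv_pow]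
    rfl

/-- The Herbrand indices of `J_S = ∏_{q ∈ S} (ℚ_q ⊗ K)ˣ`, unconditionally. -/
theorem fq_lh_JS_herbrand (S : Finset Nat.Primes) (K : Type) [Field K] [NumberField K]
    (σ : K ≃ₐ[ℚ] K) (p : ℕ) [hp : Fact p.Prime] (hσ : orderOf σ = p) :
    (fq_nuJ S K σ p).range.relIndex (fq_thetaJ S K σ).ker = p ^ ∑ q ∈ S, fq_numStable K q σ ∧
      (fq_thetaJ S K σ).range.relIndex (fq_nuJ S K σ p).ker = 1 :=
  fq_JS_herbrand S K σ p (by rw [← hσ, pow_orderOf_eq_one])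
    (fun q _ => fq_lh_localHyp K q σ p hσ)

end Fermat.Agent.S55
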