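import Mathlib
import Fermat.Agent.S55.Idele.Defs
import Fermat.Agent.S55.SUnit.Main

/-!
# S55 / block [G1]: the Herbrand quotient of the `S`-units in the idele model

Bridge from `su_sunits_herbrand` (number field types `F ⊂ K`, `S_F` a finite set of primes of `F`)
to the model of `Idele/Defs.lean`: `K` a number field, `σ : K ≃ₐ[ℚ] K` of odd prime order `p`,
`S : Finset Nat.Primes`, `id_ES S K ≤ Kˣ` the `S`-units.  With `F` the fixed field of `σ`:

`fq_sb_herbrand : p * h⁰(E_S) = p ^ #{w ∣ S : σ w = w} * h¹(E_S)`, both indices nonzero,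

for any `θ ν : id_ES S K →* id_ES S K` given on the underlying units by `x ↦ σ x / x` and
`x ↦ ∏_{k<p} σ^k x`.
-/

set_option autoImplicit false
set_option linter.unusedSectionVars false

open scoped NumberField Pointwise
open NumberField IsDedekindDomain Fermat.Agent.S14

noncomputable section

namespace Fermat.Agent.S55

universe u

variable (S : Finset Nat.Primes) (K : Type u) [Field K] [NumberField K] (σ : K ≃ₐ[ℚ] K)

/-! ### The fixed field of `σ` -/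

/-- The fixed field of `σ`. -/
abbrev fq_sb_F : IntermediateField ℚ K := IntermediateField.fixedField (Subgroup.zpowers σ)

instance fq_sb_isGalois : IsGalois (fq_sb_F K σ) K :=
  IsGalois.of_fixed_field K (Subgroup.zpowers σ)

theorem fq_sb_fixed_zpow (k : ℤ) (x : fq_sb_F K σ) : (σ ^ k) (x : K) = x :=
  (IntermediateField.mem_fixedField_iff _ _).1 x.2 (σ ^ k) (Subgroup.zpow_mem_zpowers σ k)

theorem fq_sb_fixed (x : fq_sb_F K σ) : σ (x : K) = x := by
  have := fq_sb_fixed_zpow K σ 1 x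
  rwa [zpow_one] at this

/-- `σ` as an element of `Gal(K/F)`. -/
def fq_sb_gen : Gal(K/fq_sb_F K σ) :=
  AlgEquiv.ofRingEquiv (f := (σ : K ≃+* K)) (fun x => fq_sb_fixed K σ x)

@[simp] theorem fq_sb_gen_apply (x : K) : fq_sb_gen K σ x = σ x := rfl

theorem fq_sb_restrict_gen : AlgEquiv.restrictScalarsHom ℚ (fq_sb_gen K σ) = σ := by
  ext x
  rfl

theorem fq_sb_gen_zpow_apply (k : ℤ) (x : K) : (fq_sb_gen K σ ^ k) x = (σ ^ k) x := by
  have h := map_zpow (AlgEquiv.restrictScalarsHom ℚ) (fq_sb_gen K σ) k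
  rw [fq_sb_restrict_gen] at h
  have h2 := congrArg (fun f : K ≃ₐ[ℚ] K => f x) h
  exact h2

theorem fq_sb_gen_generates (g : Gal(K/fq_sb_F K σ)) :
    g ∈ Subgroup.zpowers (fq_sb_gen K σ) := by
  have h1 : AlgEquiv.restrictScalarsHom ℚ g ∈ (fq_sb_F K σ).fixingSubgroup := by
    rw [IntermediateField.mem_fixingSubgroup_iff]
    intro x hx
    exact g.commutes ⟨x, hx⟩
  rw [IntermediateField.fixingSubgroup_fixedField] at h1
  obtain ⟨k, hk⟩ := Subgroup.mem_zpowers_iff.1 h1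
  refine Subgroup.mem_zpowers_iff.2 ⟨k, ?_⟩
  ext x
  rw [fq_sb_gen_zpow_apply, hk]
  rfl

theorem fq_sb_finrank {p : ℕ} (hσ : orderOf σ = p) :
    Module.finrank (fq_sb_F K σ) K = p := by
  rw [IntermediateField.finrank_fixedField_eq_card, Nat.card_zpowers, hσ]

/-! ### The primes of a number field above `S` -/

section primesOverS

variable (F : Type u) [Field F] [NumberField F]

theorem fq_sb_span_ne_zero (q : Nat.Primes) : Ideal.span {((q : ℕ) : 𝓞 F)} ≠ 0 := by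
  rw [Ne, Ideal.zero_eq_bot, Ideal.span_singleton_eq_bot]
  exact Nat.cast_ne_zero.2 q.2.ne_zero

open Classical in
/-- The primes of `F` above the rational primes in `S`. -/
def fq_sb_SF : Finset (HeightOneSpectrum (𝓞 F)) :=
  S.biUnion fun q => (Ideal.finite_factors (fq_sb_span_ne_zero F q)).toFinset

theorem fq_sb_mem_SF (v : HeightOneSpectrum (𝓞 F)) :
    v ∈ fq_sb_SF S F ↔ ∃ q ∈ S, ((q : ℕ) : 𝓞 F) ∈ v.asIdeal := by
  classical
  simp only [fq_sb_SF, Finset.mem_biUnion, Set.Finite.mem_toFinset, Set.mem_ofPred_eq,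
    Ideal.dvd_span_singleton]

variable {F} [Algebra F K]

theorem fq_sb_under_mem_SF (w : HeightOneSpectrum (𝓞 K)) :
    w.under (𝓞 F) ∈ fq_sb_SF S F ↔ ∃ q ∈ S, ((q : ℕ) : 𝓞 K) ∈ w.asIdeal := by
  rw [fq_sb_mem_SF]
  have h : ∀ q : Nat.Primes, ((q : ℕ) : 𝓞 F) ∈ (w.under (𝓞 F)).asIdeal ↔
      ((q : ℕ) : 𝓞 K) ∈ w.asIdeal := by
    intro q
    change algebraMap (𝓞 F) (𝓞 K) ((q : ℕ) : 𝓞 F) ∈ w.asIdeal ↔ _
    rw [map_natCast]
  simp only [h]

/-- The `T`-units of `K` (`T` = primes above the primes of `F` above `S`) are the `S`-units. -/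
theorem fq_sb_ET_eq : su_ET F K (fq_sb_SF S F) = id_ES S K := by
  ext x
  rw [su_mem_ET, id_mem_ES_iff]
  constructor
  · intro h v hv
    apply h
    rw [fq_sb_under_mem_SF]
    rintro ⟨q, hq, hmem⟩
    exact hv q hq hmem
  · intro h w hw
    apply h
    intro q hq hmem
    exact hw ((fq_sb_under_mem_SF S K w).2 ⟨q, hq, hmem⟩)

end primesOverS

/-! ### Transport of Herbrand indices along an isomorphism -/

theorem fq_sb_relIndex_transport {A B : Type*} [Group A] [Group B] (e : A ≃* B)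
    (f g : A →* A) (f' g' : B →* B) (hf : ∀ a, e (f a) = f' (e a))
    (hg : ∀ a, e (g a) = g' (e a)) :
    g.range.relIndex f.ker = g'.range.relIndex f'.ker := by
  rw [← Subgroup.relIndex_map_map_of_injective g.range f.ker (f := e.toMonoidHom) e.injective]
  congr 1
  · ext b
    simp only [Subgroup.mem_map, MonoidHom.mem_range]
    constructor
    · rintro ⟨_, ⟨a, rfl⟩, rfl⟩
      exact ⟨e a, (hg a).symm⟩
    · rintro ⟨b', rfl⟩
      obtain ⟨a, rfl⟩ := e.surjective b'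
      exact ⟨g a, ⟨a, rfl⟩, hg a⟩
  · ext b
    simp only [Subgroup.mem_map, MonoidHom.mem_ker]
    constructor
    · rintro ⟨a, ha, rfl⟩
      change f' (e a) = 1
      rw [← hf, ha, map_one]
    · intro hb
      obtain ⟨a, rfl⟩ := e.surjective b
      refine ⟨a, ?_, rfl⟩
      apply e.injective
      rw [hf, map_one]
      exact hb

/-! ### The `σ`-stable primes -/

variable {K σ} in
theorem fq_sb_smul_inv_algebraMap (k : ℤ) (y : 𝓞 (fq_sb_F K σ)) :
    (σ ^ k) • (algebraMap (𝓞 (fq_sb_F K σ)) (𝓞 K) y) = algebraMap (𝓞 (fq_sb_F K σ)) (𝓞 K) y := by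
  apply RingOfIntegers.ext
  exact fq_sb_fixed_zpow K σ k (y : fq_sb_F K σ)

variable {K σ} in
theorem fq_sb_under_smul (w : HeightOneSpectrum (𝓞 K)) :
    (σ • w).under (𝓞 (fq_sb_F K σ)) = w.under (𝓞 (fq_sb_F K σ)) := by
  apply HeightOneSpectrum.ext
  ext y
  change algebraMap (𝓞 (fq_sb_F K σ)) (𝓞 K) y ∈ σ • w.asIdeal ↔
    algebraMap (𝓞 (fq_sb_F K σ)) (𝓞 K) y ∈ w.asIdeal
  rw [Ideal.mem_pointwise_smul_iff_inv_smul_mem]
  have h := fq_sb_smul_inv_algebraMap (K := K) (σ := σ) (-1) y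
  rw [zpow_neg, zpow_one] at h
  rw [h]

variable {K σ} in
theorem fq_sb_zpow_smul_of_fixed {w : HeightOneSpectrum (𝓞 K)} (hw : σ • w = w) (k : ℤ) :
    (σ ^ k) • w = w := by
  have h : σ ∈ MulAction.stabilizer (K ≃ₐ[ℚ] K) w := MulAction.mem_stabilizer_iff.2 hw
  exact MulAction.mem_stabilizer_iff.1 (Subgroup.zpow_mem _ h k)

variable {K σ} in
/-- A `σ`-stable prime is the only prime above its restriction to the fixed field. -/
theorem fq_sb_eq_of_fixed {w w' : HeightOneSpectrum (𝓞 K)} (hw : σ • w = w)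
    (h : w'.under (𝓞 (fq_sb_F K σ)) = w.under (𝓞 (fq_sb_F K σ))) : w' = w := by
  have : w.asIdeal.LiesOver (w.under (𝓞 (fq_sb_F K σ))).asIdeal := dn_liesOver_of_under_eq rfl
  have : w'.asIdeal.LiesOver (w.under (𝓞 (fq_sb_F K σ))).asIdeal := dn_liesOver_of_under_eq h
  obtain ⟨g, hg⟩ := Ideal.exists_smul_eq_of_isGaloisGroup (w.under (𝓞 (fq_sb_F K σ))).asIdeal
    w.asIdeal w'.asIdeal Gal(K/fq_sb_F K σ)
  obtain ⟨k, rfl⟩ := Subgroup.mem_zpowers_iff.1 (fq_sb_gen_generates K σ g)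
  have h1 : (fq_sb_gen K σ ^ k) • w.asIdeal = (σ ^ k) • w.asIdeal := by
    ext x
    rw [Ideal.mem_pointwise_smul_iff_inv_smul_mem, Ideal.mem_pointwise_smul_iff_inv_smul_mem]
    have h2 : (fq_sb_gen K σ ^ k)⁻¹ • x = (σ ^ k)⁻¹ • x := by
      apply RingOfIntegers.ext
      rw [← zpow_neg, ← zpow_neg]
      exact fq_sb_gen_zpow_apply K σ (-k) (x : K)
    rw [h2]
  have h3 : (σ ^ k) • w.asIdeal = w.asIdeal :=
    congrArg HeightOneSpectrum.asIdeal (fq_sb_zpow_smul_of_fixed hw k)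
  apply HeightOneSpectrum.ext
  rw [← hg, h1, h3]

variable {K σ} in
/-- If there is only one prime above `w ∩ F`, then `w` is `σ`-stable. -/
theorem fq_sb_fixed_of_card {w : HeightOneSpectrum (𝓞 K)}
    (h : Nat.card (dn_fiber (fq_sb_F K σ) K (w.under (𝓞 (fq_sb_F K σ)))) = 1) : σ • w = w := by
  obtain ⟨hs, _⟩ := Nat.card_eq_one_iff_unique.1 h
  have := hs.elim (⟨σ • w, fq_sb_under_smul w⟩ : dn_fiber (fq_sb_F K σ) K _) ⟨w, rfl⟩
  exact congrArg Subtype.val this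

variable {K σ} in
theorem fq_sb_card_of_fixed {w : HeightOneSpectrum (𝓞 K)} (hw : σ • w = w) :
    Nat.card (dn_fiber (fq_sb_F K σ) K (w.under (𝓞 (fq_sb_F K σ)))) = 1 := by
  rw [Nat.card_eq_one_iff_unique]
  refine ⟨⟨fun a b => ?_⟩, ⟨⟨w, rfl⟩⟩⟩
  apply Subtype.ext
  rw [fq_sb_eq_of_fixed hw a.2, fq_sb_eq_of_fixed hw b.2]

/-- The `σ`-stable primes of `K` above `S`. -/
abbrev fq_sb_Fixed : Type u :=
  {w : HeightOneSpectrum (𝓞 K) // (∃ q ∈ S, ((q : ℕ) : 𝓞 K) ∈ w.asIdeal) ∧ σ • w = w}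

open Classical in
/-- The primes of the fixed field above `S` with a single prime of `K` above them. -/
def fq_sb_Inert : Finset (HeightOneSpectrum (𝓞 (fq_sb_F K σ))) :=
  (fq_sb_SF S (fq_sb_F K σ)).filter fun v => Nat.card (dn_fiber (fq_sb_F K σ) K v) = 1

theorem fq_sb_card_fixed : Nat.card (fq_sb_Fixed S K σ) = (fq_sb_Inert S K σ).card := by
  classical
  let f : fq_sb_Fixed S K σ → ↥(fq_sb_Inert S K σ) := fun w =>
    ⟨w.1.under (𝓞 (fq_sb_F K σ)), Finset.mem_filter.2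
      ⟨(fq_sb_under_mem_SF S K w.1).2 w.2.1, fq_sb_card_of_fixed w.2.2⟩⟩
  have hf : Function.Bijective f := by
    constructor
    · intro w w' h
      have h1 : w.1.under (𝓞 (fq_sb_F K σ)) = w'.1.under (𝓞 (fq_sb_F K σ)) :=
        congrArg Subtype.val h
      exact Subtype.ext (fq_sb_eq_of_fixed w'.2.2 h1)
    · rintro ⟨v, hv⟩
      obtain ⟨hvS, hcard⟩ := Finset.mem_filter.1 hv
      obtain ⟨_, ⟨⟨w, hw⟩⟩⟩ := Nat.card_eq_one_iff_unique.1 hcard
      subst hw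
      exact ⟨⟨w, (fq_sb_under_mem_SF S K w).1 hvS, fq_sb_fixed_of_card hcard⟩, rfl⟩
  rw [Nat.card_congr (Equiv.ofBijective f hf), Nat.card_eq_fintype_card, Fintype.card_coe]

theorem fq_sb_prod_localDeg {p : ℕ} (hp : p.Prime) (hσ : orderOf σ = p) :
    ∏ v ∈ fq_sb_SF S (fq_sb_F K σ), su_localDeg K v = p ^ Nat.card (fq_sb_Fixed S K σ) := by
  classical
  have hdeg := fq_sb_finrank K σ hσ
  have h1 : ∀ v ∈ fq_sb_SF S (fq_sb_F K σ), su_localDeg K v =
      if Nat.card (dn_fiber (fq_sb_F K σ) K v) = 1 then p else 1 := by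
    intro v _
    rcases su_fiber_dichotomy K hp hdeg v with ⟨h, h'⟩ | ⟨h, h'⟩
    · rw [if_pos h, h']
    · rw [if_neg (by rw [h]; exact hp.one_lt.ne'), h']
  rw [Finset.prod_congr rfl h1, Finset.prod_ite, Finset.prod_const, Finset.prod_const_one,
    mul_one, fq_sb_card_fixed]
  rfl

/-! ### The Herbrand quotient of the `S`-units -/

/-- **Herbrand quotient of the `S`-units** in the idele model: for `σ : K ≃ₐ[ℚ] K` of odd prime
order `p`, `p · h⁰(E_S) = p ^ #{w ∣ S : σ w = w} · h¹(E_S)`, and both indices are nonzero. -/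
theorem fq_sb_herbrand (p : ℕ) [hp : Fact p.Prime] (hp2 : p ≠ 2) (hσ : orderOf σ = p)
    (θ ν : ↥(id_ES S K) →* ↥(id_ES S K))
    (hθ : ∀ x : ↥(id_ES S K), ((θ x : ↥(id_ES S K)) : Kˣ) = σ • (x : Kˣ) / (x : Kˣ))
    (hν : ∀ x : ↥(id_ES S K), ((ν x : ↥(id_ES S K)) : Kˣ) =
      ∏ k ∈ Finset.range p, (σ ^ k) • (x : Kˣ)) :
    ν.range.relIndex θ.ker ≠ 0 ∧ θ.range.relIndex ν.ker ≠ 0 ∧
      p * ν.range.relIndex θ.ker =
        p ^ Nat.card (fq_sb_Fixed S K σ) * θ.range.relIndex ν.ker := by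
  obtain ⟨h0, h1, heq⟩ := su_sunits_herbrand p hp2 (fq_sb_gen K σ) (fq_sb_gen_generates K σ)
    (fq_sb_finrank K σ hσ) (fq_sb_SF S (fq_sb_F K σ))
  rw [fq_sb_prod_localDeg S K σ hp.out hσ] at heq
  -- transport along `su_ET = id_ES`
  let e : ↥(su_ET (fq_sb_F K σ) K (fq_sb_SF S (fq_sb_F K σ))) ≃* ↥(id_ES S K) :=
    MulEquiv.subgroupCongr (fq_sb_ET_eq S K)
  have he : ∀ x, ((e x : ↥(id_ES S K)) : Kˣ) = (x : Kˣ) := fun _ => rfl
  have hunit : ∀ (k : ℕ) (x : ↥(su_ET (fq_sb_F K σ) K (fq_sb_SF S (fq_sb_F K σ)))),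
      ((su_unitHom (fq_sb_SF S (fq_sb_F K σ)) (fq_sb_gen K σ ^ k) x : ↥(su_ET _ K _)) : Kˣ) =
        (σ ^ k) • (x : Kˣ) := by
    intro k x
    apply Units.ext
    rw [su_unitHom_coe]
    have := fq_sb_gen_zpow_apply K σ (k : ℤ) ((x : Kˣ) : K)
    rw [zpow_natCast, zpow_natCast] at this
    rw [this]
    rfl
  have hν' : ∀ x, e (su_nu (fq_sb_SF S (fq_sb_F K σ)) (fq_sb_gen K σ) p x) = ν (e x) := by
    intro x
    apply Subtype.ext
    rw [hν, he, he, su_nu_apply, Subgroup.val_finsetProd]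
    exact Finset.prod_congr rfl fun k _ => hunit k x
  have hθ' : ∀ x, e (su_theta (fq_sb_SF S (fq_sb_F K σ)) (fq_sb_gen K σ) x) = θ⁻¹ (e x) := by
    intro x
    apply Subtype.ext
    rw [MonoidHom.inv_apply, Subgroup.coe_inv, hθ, he, he, su_theta_apply, Subgroup.coe_div,
      inv_div]
    have := hunit 1 x
    rw [pow_one, pow_one] at this
    rw [this]
  have hker : (θ⁻¹ : ↥(id_ES S K) →* ↥(id_ES S K)).ker = θ.ker := by
    ext x
    simp only [MonoidHom.mem_ker, MonoidHom.inv_apply, inv_eq_one]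
  have hrange : (θ⁻¹ : ↥(id_ES S K) →* ↥(id_ES S K)).range = θ.range := by
    ext x
    simp only [MonoidHom.mem_range, MonoidHom.inv_apply]
    constructor
    · rintro ⟨y, rfl⟩
      exact ⟨y⁻¹, map_inv θ y⟩
    · rintro ⟨y, rfl⟩
      exact ⟨y⁻¹, by rw [map_inv, inv_inv]⟩
  have e0 := fq_sb_relIndex_transport e (su_theta (fq_sb_SF S (fq_sb_F K σ)) (fq_sb_gen K σ))
    (su_nu (fq_sb_SF S (fq_sb_F K σ)) (fq_sb_gen K σ) p) θ⁻¹ ν hθ' hν'
  have e1 := fq_sb_relIndex_transport e (su_nu (fq_sb_SF S (fq_sb_F K σ)) (fq_sb_gen K σ) p)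
    (su_theta (fq_sb_SF S (fq_sb_F K σ)) (fq_sb_gen K σ)) ν θ⁻¹ hν' hθ'
  rw [hker] at e0
  rw [hrange] at e1
  rw [e0] at h0 heq
  rw [e1] at h1 heq
  exact ⟨h0, h1, heq⟩

end Fermat.Agent.S55
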