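import Fermat.Agent.S55.G1.Abstract
import Fermat.Agent.S55.G1.Exact
import Fermat.Agent.S55.G1.Local
import Fermat.Agent.S55.G1.ClassFinite
import Fermat.Agent.S55.G1.SUnitBridge
import Fermat.Agent.S55.G1.LocalHyp
import Fermat.Agent.S55.Idele.DictCount
import Fermat.Agent.S55.Tate.HerbrandBridge

/-!
# S55 / G1: the first inequality `h(C_S) = p` on a cyclic layer of prime degree

For `σ : K ≃ₐ[ℚ] K` of odd prime order `p` and `S` nonempty, with `θ x = σ x / x` and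
`ν x = ∏_{k<p} σ^k x` on `C = id_C S K`:

`[ker θ : im ν] = p * [ker ν : im θ]`, both indices nonzero,

under the two hypotheses
* `fq_LocalHyp K q σ p` for `q ∈ S` (local norm index + Hilbert 90 at the stable places), and
* `fq_CountHyp S K σ` (the number of `σ`-stable maximal ideals of the `ℚ_q ⊗ K`, `q ∈ S`, is the
  number of `σ`-stable primes of `K` above `S`).
-/

set_option autoImplicit false
set_option linter.unusedSectionVars false
set_option linter.style.haveILetI false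

open scoped TensorProduct NumberField Pointwise
open IsDedekindDomain Finset

noncomputable section

namespace Fermat.Agent.S55

universe u

variable (S : Finset Nat.Primes) (K : Type u) [Field K] [NumberField K]

/-- The count hypothesis: the `σ`-stable maximal ideals of the `ℚ_q ⊗ K` (`q ∈ S`) are as many as
the `σ`-stable primes of `K` above `S`. -/
def fq_CountHyp (σ : K ≃ₐ[ℚ] K) : Prop :=
  ∑ q ∈ S, fq_numStable K q σ = Nat.card (fq_sb_Fixed S K σ)

/-- A prime of `K` lies above at most one rational prime. -/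
theorem fq_prime_unique (w : HeightOneSpectrum (𝓞 K)) (q q' : Nat.Primes)
    (h : ((q : ℕ) : 𝓞 K) ∈ w.asIdeal) (h' : ((q' : ℕ) : 𝓞 K) ∈ w.asIdeal) : q = q' := by
  by_contra hne
  have hcop : Nat.Coprime (q : ℕ) (q' : ℕ) :=
    (Nat.coprime_primes q.2 q'.2).2 fun h => hne (Subtype.ext h)
  have hco : IsCoprime ((q : ℕ) : ℤ) ((q' : ℕ) : ℤ) := Nat.isCoprime_iff_coprime.2 hcop
  obtain ⟨a, b, hab⟩ := hco
  have h1 : (1 : 𝓞 K) ∈ w.asIdeal := by
    have : ((a * ((q : ℕ) : ℤ) + b * ((q' : ℕ) : ℤ) : ℤ) : 𝓞 K) = 1 := by rw [hab]; simp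
    rw [← this]
    push_cast
    exact w.asIdeal.add_mem (w.asIdeal.mul_mem_left _ h) (w.asIdeal.mul_mem_left _ h')
  exact w.isPrime.ne_top ((Ideal.eq_top_iff_one _).2 h1)

theorem fq_finite_over (q : Nat.Primes) :
    {w : HeightOneSpectrum (𝓞 K) | ((q : ℕ) : 𝓞 K) ∈ w.asIdeal}.Finite := by
  have hq0 : Ideal.span {((q : ℕ) : 𝓞 K)} ≠ 0 := by
    rw [Ne, Ideal.zero_eq_bot, Ideal.span_singleton_eq_bot]
    exact_mod_cast q.2.ne_zero
  refine (Ideal.finite_factors hq0).subset ?_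
  intro w hw
  change w.asIdeal ∣ _
  rw [Ideal.dvd_iff_le, Ideal.span_singleton_le_iff_mem]
  exact hw

/-- The `σ`-stable primes above `S`, sorted by the rational prime below. -/
def fq_sigmaToFixed (σ : K ≃ₐ[ℚ] K)
    (x : Σ q : S, {w : HeightOneSpectrum (𝓞 K) // (((q : Nat.Primes) : ℕ) : 𝓞 K) ∈ w.asIdeal ∧
        σ • w = w}) : fq_sb_Fixed S K σ :=
  ⟨x.2.1, ⟨x.1.1, x.1.2, x.2.2.1⟩, x.2.2.2⟩

theorem fq_sigmaToFixed_bijective (σ : K ≃ₐ[ℚ] K) :
    Function.Bijective (fq_sigmaToFixed S K σ) := by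
  constructor
  · rintro ⟨⟨q, hq⟩, w, hw1, hw2⟩ ⟨⟨q', hq'⟩, w', hw1', hw2'⟩ h
    have hw : w = w' := congrArg Subtype.val h
    subst hw
    have hqq : q = q' := fq_prime_unique K w q q' hw1 hw1'
    subst hqq
    rfl
  · rintro ⟨w, ⟨q, hq, hw1⟩, hw2⟩
    exact ⟨⟨⟨q, hq⟩, w, hw1, hw2⟩, rfl⟩

/-- The count hypothesis follows from the count at each `q ∈ S`. -/
theorem fq_countHyp_of (σ : K ≃ₐ[ℚ] K)
    (h : ∀ q ∈ S, fq_numStable K q σ =
      Nat.card {w : HeightOneSpectrum (𝓞 K) // ((q : ℕ) : 𝓞 K) ∈ w.asIdeal ∧ σ • w = w}) :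
    fq_CountHyp S K σ := by
  haveI : ∀ q : S, Finite {w : HeightOneSpectrum (𝓞 K) //
      (((q : Nat.Primes) : ℕ) : 𝓞 K) ∈ w.asIdeal ∧ σ • w = w} := fun q =>
    ((fq_finite_over K q.1).subset fun w hw => hw.1).to_subtype
  rw [fq_CountHyp, ← Nat.card_congr (Equiv.ofBijective _ (fq_sigmaToFixed_bijective S K σ)),
    Nat.card_sigma, Finset.sum_congr rfl h,
    ← Finset.sum_coe_sort S (fun q => Nat.card {w : HeightOneSpectrum (𝓞 K) //
      ((q : ℕ) : 𝓞 K) ∈ w.asIdeal ∧ σ • w = w})]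

theorem fq_numStable_eq_natCard (q : Nat.Primes) (σ : K ≃ₐ[ℚ] K) :
    fq_numStable K q σ =
      Nat.card {𝔪 : MaximalSpectrum (id_A K q) // hq_specPerm (fq_ringAut K q σ) 𝔪 = 𝔪} := by
  classical
  rw [fq_numStable, Nat.card_eq_fintype_card]

set_option maxHeartbeats 400000 in
/-- **First inequality (Herbrand quotient of `C_S`)**, modulo the local and count hypotheses. -/
theorem fq_first_ineq_of (hS : S.Nonempty) (σ : K ≃ₐ[ℚ] K) (p : ℕ) [hp : Fact p.Prime]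
    (hp2 : p ≠ 2) (hσ : orderOf σ = p) (hloc : ∀ q ∈ S, fq_LocalHyp K q σ p)
    (hcount : fq_CountHyp S K σ) :
    (fq_nuC S K σ p).range.relIndex (fq_thetaC S K σ).ker ≠ 0 ∧
      (fq_thetaC S K σ).range.relIndex (fq_nuC S K σ p).ker ≠ 0 ∧
      (fq_nuC S K σ p).range.relIndex (fq_thetaC S K σ).ker
        = p * (fq_thetaC S K σ).range.relIndex (fq_nuC S K σ p).ker := by
  have hσp : σ ^ p = 1 := by rw [← hσ]; exact pow_orderOf_eq_one σ
  obtain ⟨hJ0, hJ1⟩ := fq_JS_herbrand S K σ p hσp hloc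
  obtain ⟨hE0, hE1, hE⟩ := fq_sb_herbrand S K σ p hp2 hσ (fq_thetaE S K σ) (fq_nuE S K σ p)
    (fun x => fq_thetaE_coe S K σ x) (fun x => fq_nuE_coe S K σ p x)
  rw [← hcount] at hE
  have hidx : (id_jS S K).range.index ≠ 0 := fq_index_CSo_ne_zero S K
  have h1 := fq_theta_nu (M := id_JS S K) σ p hσp
  have h2 := fq_nu_theta (M := id_JS S K) σ p hσp
  have h3 := fq_theta_nu (M := id_C S K) σ p hσp
  have h4 := fq_nu_theta (M := id_C S K) σ p hσp
  have h5 : ∀ a, id_jS S K (fq_thetaJ S K σ a) = fq_thetaC S K σ (id_jS S K a) := fq_jS_theta S K σ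
  have h6 : ∀ a, id_jS S K (fq_nuJ S K σ p a) = fq_nuC S K σ p (id_jS S K a) := fq_jS_nu S K σ p
  have h3' : ∀ x, fq_thetaC S K σ (fq_nuC S K σ p x) = 1 := h3
  have h4' : ∀ x, fq_nuC S K σ p (fq_thetaC S K σ x) = 1 := h4
  have h1' : ∀ x, fq_thetaJ S K σ (fq_nuJ S K σ p x) = 1 := h1
  have h2' : ∀ x, fq_nuJ S K σ p (fq_thetaJ S K σ x) = 1 := h2
  have A := fq_abstract (E := ↥(id_ES S K)) (J := id_JS S K) (C := id_C S K)
    (fq_iota S K) (id_jS S K) (fq_iota_injective S K hS) (fq_ker_jS S K)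
  have B := A hidx (fq_thetaE S K σ) (fq_nuE S K σ p) (fq_thetaJ S K σ) (fq_nuJ S K σ p)
    (fq_thetaC S K σ) (fq_nuC S K σ p)
  have C1 := B (fq_iota_thetaE S K σ) (fq_iota_nuE S K σ p)
  have C2 := C1 h5 h6
  have C3 := C2 h1' h2'
  have C4 := C3 h3' h4'
  have C5 := C4 p (∑ q ∈ S, fq_numStable K q σ) hp.out.ne_zero
  have C6 := C5 hJ0 hJ1
  have C7 := C6 hE0 hE1
  have C8 := C7 hE
  exact C8

/-- The count hypothesis holds (dictionary between the maximal ideals of `ℚ_q ⊗ K` and the primes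
of `K` above `q`). -/
theorem fq_countHyp (σ : K ≃ₐ[ℚ] K) : fq_CountHyp S K σ := by
  refine fq_countHyp_of S K σ fun q _ => ?_
  rw [fq_numStable_eq_natCard]
  exact dc_card_fixed_specPerm σ

/-- **First inequality (Herbrand quotient of `C_S`)**: for `σ : K ≃ₐ[ℚ] K` of odd prime order `p`
and `S ≠ ∅`, `[ker θ : im ν] = p * [ker ν : im θ]` on `C_S(K)`, both indices nonzero. -/
theorem fq_first_ineq (S : Finset Nat.Primes) (K : Type) [Field K] [NumberField K]
    (hS : S.Nonempty) (σ : K ≃ₐ[ℚ] K) (p : ℕ) [hp : Fact p.Prime]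
    (hp2 : p ≠ 2) (hσ : orderOf σ = p) :
    (fq_nuC S K σ p).range.relIndex (fq_thetaC S K σ).ker ≠ 0 ∧
      (fq_thetaC S K σ).range.relIndex (fq_nuC S K σ p).ker ≠ 0 ∧
      (fq_nuC S K σ p).range.relIndex (fq_thetaC S K σ).ker
        = p * (fq_thetaC S K σ).range.relIndex (fq_nuC S K σ p).ker :=
  fq_first_ineq_of S K hS σ p hp2 hσ (fun q _ => fq_lh_localHyp K q σ p hσ) (fq_countHyp S K σ)

end Fermat.Agent.S55
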