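import Fermat.Agent.S55.SUnit.Hexagon
import Fermat.Agent.S14.FirstIneq.Herbrand

/-!
# S55 / G1: the abstract Herbrand computation

`1 → E → J → C` exact with `J → C` of finite-index image, compatible pairs of endomorphisms
`(f, g)` with `f ∘ g = 1 = g ∘ f` on `J` and `C`.  If `h0 J = p ^ a`, `h1 J = 1` and
`p * h0 E = p ^ a * h1 E` (both nonzero), then `h0 C = p * h1 C`, both nonzero.
Here `h0 X = [ker f : im g] = g.range.relIndex f.ker` and `h1 X = [ker g : im f]`.
-/

set_option autoImplicit false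
set_option linter.unusedSectionVars false

namespace Fermat.Agent.S55

open Fermat.Agent.S14

variable {E J C : Type*} [CommGroup E] [CommGroup J] [CommGroup C]

theorem fq_abstract (ι : E →* J) (j : J →* C) (hι : Function.Injective ι)
    (hex : j.ker = ι.range) (hidx : j.range.index ≠ 0)
    (fE gE : E →* E) (fJ gJ : J →* J) (fC gC : C →* C)
    (hfE : ∀ a, ι (fE a) = fJ (ι a)) (hgE : ∀ a, ι (gE a) = gJ (ι a))
    (hfC : ∀ a, j (fJ a) = fC (j a)) (hgC : ∀ a, j (gJ a) = gC (j a))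
    (hfgJ : ∀ x, fJ (gJ x) = 1) (hgfJ : ∀ x, gJ (fJ x) = 1)
    (hfgC : ∀ x, fC (gC x) = 1) (hgfC : ∀ x, gC (fC x) = 1)
    (p a : ℕ) (hp : p ≠ 0)
    (hJ0 : gJ.range.relIndex fJ.ker = p ^ a) (hJ1 : fJ.range.relIndex gJ.ker = 1)
    (hE0 : gE.range.relIndex fE.ker ≠ 0) (hE1 : fE.range.relIndex gE.ker ≠ 0)
    (hE : p * gE.range.relIndex fE.ker = p ^ a * fE.range.relIndex gE.ker) :
    gC.range.relIndex fC.ker ≠ 0 ∧ fC.range.relIndex gC.ker ≠ 0 ∧
      gC.range.relIndex fC.ker = p * fC.range.relIndex gC.ker := by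
  -- the image `Q` of `J` in `C`
  have hQf : ∀ x : j.range, fC x ∈ j.range := by
    rintro ⟨_, a, rfl⟩
    exact ⟨fJ a, hfC a⟩
  have hQg : ∀ x : j.range, gC x ∈ j.range := by
    rintro ⟨_, a, rfl⟩
    exact ⟨gJ a, hgC a⟩
  let fQ : j.range →* j.range := (fC.comp j.range.subtype).codRestrict j.range hQf
  let gQ : j.range →* j.range := (gC.comp j.range.subtype).codRestrict j.range hQg
  have hker : j.rangeRestrict.ker = ι.range := by rw [MonoidHom.ker_rangeRestrict, hex]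
  obtain ⟨hex1, hex2, -, -⟩ := hq_hexagon ι j.rangeRestrict hι j.rangeRestrict_surjective hker
    fJ gJ fE gE fQ gQ hfE hgE
    (fun a => Subtype.ext (hfC a)) (fun a => Subtype.ext (hgC a)) hfgJ hgfJ
  have hp0 : p ^ a ≠ 0 := pow_ne_zero _ hp
  obtain ⟨hQ0, hQ1⟩ := hex2 (by rw [hJ0]; exact hp0) (by rw [hJ1]; exact one_ne_zero) hE0 hE1
  rw [hJ0, hJ1, one_mul] at hex1
  -- `p * h1 Q = h0 Q`
  have hQ : p * fQ.range.relIndex gQ.ker = gQ.range.relIndex fQ.ker := by
    have h1 : (p ^ a * fE.range.relIndex gE.ker) * (p * fQ.range.relIndex gQ.ker)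
        = (p ^ a * fE.range.relIndex gE.ker) * gQ.range.relIndex fQ.ker := by
      calc (p ^ a * fE.range.relIndex gE.ker) * (p * fQ.range.relIndex gQ.ker)
          = p * (p ^ a * fE.range.relIndex gE.ker * fQ.range.relIndex gQ.ker) := by ring
        _ = p * (gE.range.relIndex fE.ker * gQ.range.relIndex fQ.ker) := by rw [hex1]
        _ = (p * gE.range.relIndex fE.ker) * gQ.range.relIndex fQ.ker := by ring
        _ = (p ^ a * fE.range.relIndex gE.ker) * gQ.range.relIndex fQ.ker := by rw [hE]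
    exact Nat.eq_of_mul_eq_mul_left (Nat.pos_of_ne_zero (mul_ne_zero hp0 hE1)) h1
  -- pass from `Q` to `C`
  have hAf : j.range.map fC ≤ j.range := by
    rintro _ ⟨c, hc, rfl⟩
    exact hQf ⟨c, hc⟩
  have hAg : j.range.map gC ≤ j.range := by
    rintro _ ⟨c, hc, rfl⟩
    exact hQg ⟨c, hc⟩
  obtain ⟨k1, k2, k3⟩ := fi_herbrand_subgroup fC gC hfgC hgfC j.range hidx hAf hAg
  have e0 := hq_relIndex_of_injective j.range.subtype Subtype.val_injective fC gC fQ gQ
    (fun _ => rfl) (fun _ => rfl)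
  have e1 := hq_relIndex_of_injective j.range.subtype Subtype.val_injective gC fC gQ fQ
    (fun _ => rfl) (fun _ => rfl)
  rw [Subgroup.range_subtype] at e0 e1
  rw [← e0, ← e1] at k1
  rw [← e0] at k2
  rw [← e1] at k3
  refine ⟨k2 hQ0, k3 hQ1, ?_⟩
  have h2 : gC.range.relIndex fC.ker * fQ.range.relIndex gQ.ker
      = (p * fC.range.relIndex gC.ker) * fQ.range.relIndex gQ.ker := by
    rw [k1, ← hQ]; ring
  exact Nat.eq_of_mul_eq_mul_right (Nat.pos_of_ne_zero hQ1) h2

end Fermat.Agent.S55
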