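import Fermat.Agent.S55.G1.Main
import Fermat.Agent.S55.Tate.HerbrandBridge

/-!
# S55 / G1: the first inequality in subgroup / cohomological form

For a number field `L` (a type), `H ≤ L ≃ₐ[ℚ] L` cyclic of odd prime order `p` generated by `s`,
`S ≠ ∅`, and `C = id_C S L` with the restricted action of `H`:

* `fq_first_ineq_subgroup`: `[ker (s - 1) : N C] = p * [ker N : (s - 1) C]`, both nonzero
  (in the `hb_mulN` / `hb_mulD` form of `Tate/HerbrandBridge.lean`);
* `fq_layer_of_SI`: together with the second inequality `[ker (s - 1) : N C] ≤ p` this gives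
  `|Hⁱ(H, C)| = 1` for odd `i` and `|Hⁱ(H, C)| = p` for even `i > 0`.
-/

set_option autoImplicit false
set_option linter.unusedSectionVars false
set_option linter.style.haveILetI false

open scoped TensorProduct NumberField Pointwise
open IsDedekindDomain Finset

noncomputable section

namespace Fermat.Agent.S55

variable (S : Finset Nat.Primes) (L : Type) [Field L] [NumberField L]

theorem fq_mulD_eq (H : Subgroup (L ≃ₐ[ℚ] L)) [Fintype H] (s : H) :
    hb_mulD s (U := id_C S L) = fq_thetaC S L (s : L ≃ₐ[ℚ] L) :=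
  MonoidHom.ext fun _ => rfl

theorem fq_mulN_eq (H : Subgroup (L ≃ₐ[ℚ] L)) [Fintype H] (s : H)
    (hs : ∀ x, x ∈ Subgroup.zpowers s) (p : ℕ) (hp : orderOf s = p) :
    hb_mulN ↥H (U := id_C S L) = fq_nuC S L (s : L ≃ₐ[ℚ] L) p := by
  classical
  refine MonoidHom.ext fun x => ?_
  rw [hb_mulN_apply, fq_nuC_apply, ← hp, ← IsCyclic.image_range_orderOf hs,
    Finset.prod_image]
  · rfl
  · intro i hi j hj hij
    exact pow_injOn_Iio_orderOf (by simpa using hi) (by simpa using hj) hij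

/-- **First inequality, subgroup form**: `H = ⟨s⟩ ≤ L ≃ₐ[ℚ] L` of odd prime order `p`. -/
theorem fq_first_ineq_subgroup (hS : S.Nonempty) (p : ℕ) [hp : Fact p.Prime] (hp2 : p ≠ 2)
    (H : Subgroup (L ≃ₐ[ℚ] L)) [Fintype H] (s : H) (hs : ∀ x, x ∈ Subgroup.zpowers s)
    (hcard : Nat.card H = p) :
    (hb_mulN ↥H (U := id_C S L)).range.relIndex (hb_mulD s).ker ≠ 0 ∧
      (hb_mulD s (U := id_C S L)).range.relIndex (hb_mulN ↥H).ker ≠ 0 ∧
      (hb_mulN ↥H (U := id_C S L)).range.relIndex (hb_mulD s).ker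
        = p * (hb_mulD s (U := id_C S L)).range.relIndex (hb_mulN ↥H).ker := by
  have ho : orderOf s = p := by rw [orderOf_eq_card_of_forall_mem_zpowers hs, hcard]
  have ho' : orderOf (s : L ≃ₐ[ℚ] L) = p := by rw [Subgroup.orderOf_coe, ho]
  rw [fq_mulD_eq, fq_mulN_eq S L H s hs p ho]
  exact fq_first_ineq S L hS (s : L ≃ₐ[ℚ] L) p hp2 ho'

/-- First + second inequality: `h0 = p`, `h1 = 1`. -/
theorem fq_indices_of_SI (hS : S.Nonempty) (p : ℕ) [hp : Fact p.Prime] (hp2 : p ≠ 2)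
    (H : Subgroup (L ≃ₐ[ℚ] L)) [Fintype H] (s : H) (hs : ∀ x, x ∈ Subgroup.zpowers s)
    (hcard : Nat.card H = p)
    (hSI : (hb_mulN ↥H (U := id_C S L)).range.relIndex (hb_mulD s).ker ≤ p) :
    (hb_mulN ↥H (U := id_C S L)).range.relIndex (hb_mulD s).ker = p ∧
      (hb_mulD s (U := id_C S L)).range.relIndex (hb_mulN ↥H).ker = 1 := by
  obtain ⟨-, h1, h⟩ := fq_first_ineq_subgroup S L hS p hp2 H s hs hcard
  have hp0 : 0 < p := hp.out.pos
  have h1' : (hb_mulD s (U := id_C S L)).range.relIndex (hb_mulN ↥H).ker = 1 := by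
    rw [h] at hSI
    have : (hb_mulD s (U := id_C S L)).range.relIndex (hb_mulN ↥H).ker ≤ 1 := by
      by_contra hlt
      rw [not_le] at hlt
      have : p * 2 ≤ p * (hb_mulD s (U := id_C S L)).range.relIndex (hb_mulN ↥H).ker :=
        Nat.mul_le_mul_left p hlt
      omega
    omega
  exact ⟨by rw [h, h1', mul_one], h1'⟩

/-- First + second inequality, cohomological form: `|Hⁱ(H, C_S)| = 1` for odd `i` and
`|Hⁱ(H, C_S)| = p` for even `i > 0`. -/
theorem fq_layer_of_SI (hS : S.Nonempty) (p : ℕ) [hp : Fact p.Prime] (hp2 : p ≠ 2)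
    (H : Subgroup (L ≃ₐ[ℚ] L)) [Fintype H] (s : H) (hs : ∀ x, x ∈ Subgroup.zpowers s)
    (hcard : Nat.card H = p)
    (hSI : (hb_mulN ↥H (U := id_C S L)).range.relIndex (hb_mulD s).ker ≤ p) :
    (∀ i : ℕ, Odd i →
      Nat.card (groupCohomology (Rep.ofMulDistribMulAction ↥H (id_C S L)) i) = 1) ∧
    (∀ i : ℕ, i ≠ 0 → Even i →
      Nat.card (groupCohomology (Rep.ofMulDistribMulAction ↥H (id_C S L)) i) = p) := by
  obtain ⟨h0, h1⟩ := fq_indices_of_SI S L hS p hp2 H s hs hcard hSI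
  refine ⟨fun i hi => ?_, fun i hi0 hi => ?_⟩
  · rw [hb_mul_card_odd s hs i hi, h1]
  · haveI : NeZero i := ⟨hi0⟩
    rw [hb_mul_card_even s hs i hi, h0]

/-- The same for the restricted representation `Rep.res H.subtype (id_CRep S L)`, in the shape
`Subsingleton H¹ ∧ Finite H² ∧ |H²| = p`. -/
theorem fq_layer_res_of_SI (hS : S.Nonempty) (p : ℕ) [hp : Fact p.Prime] (hp2 : p ≠ 2)
    (H : Subgroup (L ≃ₐ[ℚ] L)) [Fintype H] (s : H) (hs : ∀ x, x ∈ Subgroup.zpowers s)
    (hcard : Nat.card H = p)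
    (hSI : (hb_mulN ↥H (U := id_C S L)).range.relIndex (hb_mulD s).ker ≤ p) :
    Subsingleton (groupCohomology (Rep.res H.subtype (id_CRep S L)) 1) ∧
      Finite (groupCohomology (Rep.res H.subtype (id_CRep S L)) 2) ∧
      Nat.card (groupCohomology (Rep.res H.subtype (id_CRep S L)) 2) = p := by
  obtain ⟨hodd, heven⟩ := fq_layer_of_SI S L hS p hp2 H s hs hcard hSI
  have h1 := hodd 1 odd_one
  have h2 := heven 2 two_ne_zero even_two
  change Subsingleton (groupCohomology (Rep.ofMulDistribMulAction ↥H (id_C S L)) 1) ∧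
      Finite (groupCohomology (Rep.ofMulDistribMulAction ↥H (id_C S L)) 2) ∧
      Nat.card (groupCohomology (Rep.ofMulDistribMulAction ↥H (id_C S L)) 2) = p
  refine ⟨(Nat.card_eq_one_iff_unique.1 h1).1, ?_, h2⟩
  exact Nat.finite_of_card_ne_zero (by rw [h2]; exact hp.out.ne_zero)

end Fermat.Agent.S55
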